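/-
Level one facts: Ramanujan's derivatives of `E₄`, `E₆` at zeros, and injectivity of `j` on
`SL(2, ℤ)`-orbits.
-/
import Mathlib.NumberTheory.ModularForms.LevelOne.GradedRing
import Mathlib.NumberTheory.ModularForms.Derivative
import Mathlib.NumberTheory.ModularForms.ProperlyDiscontinuous
import Mathlib.NumberTheory.Modular
import Mathlib.Analysis.Complex.OpenMapping
import Mathlib.Analysis.Normed.Module.Connected
import Mathlib.Analysis.Calculus.InverseFunctionTheorem.Deriv
import Mathlib.Analysis.Complex.Liouville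

set_option autoImplicit false

noncomputable section

namespace Fermat.Agent.DimLower

open UpperHalfPlane Filter Topology Complex Asymptotics
open scoped MatrixGroups ModularForm Manifold Real
open ModularGroup (S T)

/-- The complex function of a complex variable attached to a function on `ℍ`. -/
abbrev ext' (f : ℍ → ℂ) : ℂ → ℂ := f ∘ ofComplex

theorem analyticAt_ext {f : ℍ → ℂ} (hf : MDiff f) (z : ℍ) : AnalyticAt ℂ (ext' f) z :=
  ((UpperHalfPlane.mdifferentiable_iff.mp hf).analyticOnNhd isOpen_upperHalfPlaneSet) z z.im_pos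

theorem ext_apply (f : ℍ → ℂ) (z : ℍ) : ext' f z = f z := by simp [ext']

/-- The Eisenstein series `E₄` as a function. -/
def e4 : ℍ → ℂ := ⇑ModularForm.E₄

/-- The Eisenstein series `E₆` as a function. -/
def e6 : ℍ → ℂ := ⇑ModularForm.E₆

/-- The discriminant as a function. -/
abbrev disc : ℍ → ℂ := ModularForm.discriminant

/-- The value at infinity of a periodic function bounded there is its limit. -/
theorem tendsto_valueAtInfty {f : ℍ → ℂ} (hper : Function.Periodic (ext' f) (1 : ℝ))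
    (hf : MDiff f) (hb : IsBoundedAtImInfty f) : Tendsto f atImInfty (𝓝 (valueAtInfty f)) := by
  have h := exp_decay_sub_atImInfty one_pos hper hf hb
  have h0 : Tendsto (fun τ : ℍ ↦ Real.exp (-2 * π * τ.im / 1)) atImInfty (𝓝 0) := by
    refine Real.tendsto_exp_atBot.comp ?_
    simp only [div_one, neg_mul, tendsto_neg_atBot_iff]
    exact Tendsto.const_mul_atTop (by positivity) tendsto_comap
  simpa using (h.trans_tendsto h0).add_const (valueAtInfty f)

theorem periodic_levelOne {k : ℤ} (f : ModularForm 𝒮ℒ k) :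
    Function.Periodic (ext' f) (1 : ℝ) :=
  SlashInvariantFormClass.periodic_comp_ofComplex f one_mem_strictPeriods_SL

theorem valueAtInfty_levelOne {k : ℤ} (f : ModularForm 𝒮ℒ k) :
    valueAtInfty f = (qExpansion 1 f).coeff 0 :=
  (qExpansion_coeff_zero one_pos
    (ModularFormClass.analyticAt_cuspFunction_zero f one_pos one_mem_strictPeriods_SL)
    (periodic_levelOne f)).symm

theorem tendsto_levelOne {k : ℤ} (f : ModularForm 𝒮ℒ k) :
    Tendsto f atImInfty (𝓝 ((qExpansion 1 f).coeff 0)) := by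
  rw [← valueAtInfty_levelOne]
  exact tendsto_valueAtInfty (periodic_levelOne f) (ModularFormClass.holo f)
    (ModularFormClass.bdd_at_infty f)

theorem tendsto_e4 : Tendsto e4 atImInfty (𝓝 1) := by
  have := tendsto_levelOne ModularForm.E₄
  rwa [EisensteinSeries.E_qExpansion_coeff_zero _ ⟨2, rfl⟩] at this

theorem tendsto_e6 : Tendsto e6 atImInfty (𝓝 1) := by
  have := tendsto_levelOne ModularForm.E₆
  rwa [EisensteinSeries.E_qExpansion_coeff_zero _ ⟨3, rfl⟩] at this

theorem periodic_E2 : Function.Periodic (ext' EisensteinSeries.E2) (1 : ℝ) := by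
  intro w
  by_cases hw : 0 < w.im
  · have hw' : 0 < (w + (1 : ℝ)).im := by simpa using hw
    simp only [ext', Function.comp_apply, ofComplex_apply_of_im_pos hw',
      ofComplex_apply_of_im_pos hw, EisensteinSeries.E2_eq_tsum_cexp]
    simp [mul_add, Complex.exp_add, exp_two_pi_mul_I]
  · have hw' : (w + (1 : ℝ)).im ≤ 0 := by simpa using not_lt.mp hw
    simp only [ext', Function.comp_apply, ofComplex_apply_of_im_nonpos hw',
      ofComplex_apply_of_im_nonpos (not_lt.mp hw)]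

theorem tendsto_E2 : Tendsto EisensteinSeries.E2 atImInfty (𝓝 1) := by
  have hf : MDiff EisensteinSeries.E2 := E2_mdifferentiable
  have hb := EisensteinSeries.isBoundedAtImInfty_E2
  have ha := analyticAt_cuspFunction_zero one_pos periodic_E2 hf hb
  let c : ℕ → ℂ := fun m ↦ if m = 0 then 1 else -24 * ArithmeticFunction.sigma 1 m
  have hs : ∀ τ : ℍ, HasSum (fun m ↦ c m • Function.Periodic.qParam 1 τ ^ m)
      (EisensteinSeries.E2 τ) := fun τ ↦ by
    simpa only [c, Function.Periodic.qParam, Complex.ofReal_one, div_one] using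
      EisensteinSeries.hasSum_qExpansion_E2 (z := τ)
  have h1 := (hasFPowerSeriesOnBall_cuspFunction one_pos ha hs).coeff_zero fun _ : Fin 0 ↦ 1
  have h2 : valueAtInfty EisensteinSeries.E2 = 1 := by
    rw [← cuspFunction_apply_zero one_pos ha periodic_E2, ← h1]
    simp [c]
  simpa [h2] using tendsto_valueAtInfty periodic_E2 hf hb

theorem disc_eq (z : ℍ) : disc z = (e4 z ^ 3 - e6 z ^ 2) / 1728 :=
  ModularForm.discriminant_eq_E₄_cube_sub_E₆_sq z

/-- The derivative of a periodic function bounded at infinity tends to zero. -/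
theorem tendsto_normalizedDeriv_zero {f : ℍ → ℂ} (hper : Function.Periodic (ext' f) (1 : ℝ))
    (hf : MDiff f) (hb : IsBoundedAtImInfty f) :
    Tendsto (Derivative.normalizedDerivOfComplex f) atImInfty (𝓝 0) := by
  set L := valueAtInfty f
  have hlim := tendsto_valueAtInfty hper hf hb
  rw [Metric.tendsto_nhds]
  intro ε hε
  obtain ⟨A, hA⟩ := (atImInfty_mem _).mp
    ((Metric.tendsto_nhds.mp hlim) ε hε)
  refine (atImInfty_mem _).mpr ⟨|A| + 2, fun z hz ↦ ?_⟩
  have h2 : 2 ≤ z.im := by linarith [abs_nonneg A]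
  have hA2 : A + 2 ≤ z.im := by linarith [le_abs_self A]
  have hd : DifferentiableOn ℂ (fun w ↦ ext' f w - L) (Metric.closedBall (z : ℂ) (min 1 (z.im/2)))
      := by
    intro w hw
    have hw' : 0 < w.im := by
      have := Complex.abs_im_le_norm (w - (z : ℂ))
      rw [Metric.mem_closedBall, dist_eq_norm] at hw
      simp only [Complex.sub_im, UpperHalfPlane.coe_im] at this
      nlinarith [z.im_pos, abs_le.mp (this.trans hw), min_le_right (1:ℝ) (z.im / 2)]
    exact (((UpperHalfPlane.mdifferentiable_iff.mp hf).differentiableAt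
      (isOpen_upperHalfPlaneSet.mem_nhds hw')).sub_const L).differentiableWithinAt
  set r := min 1 (z.im / 2) with hr
  have hr0 : 0 < r := lt_min one_pos (by linarith [z.im_pos])
  have hbd : ∀ w ∈ Metric.sphere (z : ℂ) r, ‖ext' f w - L‖ ≤ ε := by
    intro w hw
    have h1 := Complex.abs_im_le_norm (w - (z : ℂ))
    rw [Metric.mem_sphere, dist_eq_norm] at hw
    simp only [Complex.sub_im, UpperHalfPlane.coe_im] at h1
    have h2 := abs_le.mp (h1.trans hw.le)
    have hw' : 0 < w.im := by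
      nlinarith [z.im_pos, min_le_right (1:ℝ) (z.im / 2)]
    have := hA ⟨w, hw'⟩ (by
      show A ≤ w.im
      nlinarith [min_le_left (1:ℝ) (z.im / 2)])
    simp only [Set.mem_ofPred_eq, dist_eq_norm] at this
    simpa [ext', ofComplex_apply_of_im_pos hw'] using this.le
  have hd' : DiffContOnCl ℂ (fun w ↦ ext' f w - L) (Metric.ball (z : ℂ) r) :=
    DifferentiableOn.diffContOnCl (hd.mono Metric.closure_ball_subset_closedBall)
  have key := Complex.norm_deriv_le_of_forall_mem_sphere_norm_le hr0 hd' hbd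
  rw [deriv_sub_const] at key
  have hr1 : r = 1 ∨ r = z.im / 2 := min_choice _ _
  simp only [Set.mem_ofPred_eq, dist_zero_right, Derivative.normalizedDerivOfComplex]
  have h2pi : ‖((2 * π * Complex.I : ℂ))⁻¹‖ = (2 * π)⁻¹ := by
    simp [Real.pi_pos.le]
  rw [norm_mul, h2pi]
  have : r = 1 := min_eq_left (by linarith)
  rw [this, div_one] at key
  calc (2 * π)⁻¹ * ‖deriv (f ∘ ofComplex) z‖ ≤ (2 * π)⁻¹ * ε :=
        mul_le_mul_of_nonneg_left key (by positivity)
    _ < 1 * ε := by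
        gcongr
        rw [inv_lt_one₀ (by positivity)]
        linarith [Real.two_le_pi]
    _ = ε := one_mul ε

theorem serre_eq_smul {k : ℕ} (F : ModularForm 𝒮ℒ k)
    (hdim : Module.rank ℂ (ModularForm 𝒮ℒ (k + 2 : ℤ)) = 1) (G : ModularForm 𝒮ℒ (k + 2 : ℤ))
    (hG : (qExpansion 1 G).coeff 0 = 1) (hF : (qExpansion 1 F).coeff 0 = 1) (z : ℍ) :
    Derivative.normalizedDerivOfComplex F z
      = (k / 12 : ℂ) * (EisensteinSeries.E2 z * F z - G z) := by
  have hFh : MDiff (F : ℍ → ℂ) := ModularFormClass.holo F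
  have hlim : Tendsto (Derivative.serreDerivative (k : ℤ) F) atImInfty (𝓝 (-(k / 12 : ℂ))) := by
    have h1 := tendsto_normalizedDeriv_zero (periodic_levelOne F) hFh
      (ModularFormClass.bdd_at_infty F)
    have h2 := ((tendsto_E2.const_mul ((k : ℂ) * 12⁻¹)).mul (tendsto_levelOne F))
    have h3 := h1.sub h2
    simp only [hF, mul_one, zero_sub] at h3
    simpa [Derivative.serreDerivative_eq, div_eq_mul_inv] using h3
  let H : ModularForm 𝒮ℒ (k + 2 : ℤ) :=
    { toFun := Derivative.serreDerivative (k : ℤ) F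
      slash_action_eq' := fun γ hγ ↦ by
        obtain ⟨g, rfl⟩ := hγ
        exact Derivative.serreDerivative_slash_invariant hFh
          (F.slash_action_eq' _ ⟨g, rfl⟩)
      holo' := Derivative.serreDerivative_mdifferentiable _ hFh
      bdd_at_cusps' := fun {c} hc ↦ by
        rw [Subgroup.IsArithmetic.isCusp_iff_isCusp_SL2Z] at hc
        rw [OnePoint.isBoundedAt_iff_forall_SL2Z hc]
        intro γ _
        rw [Derivative.serreDerivative_slash_invariant hFh (F.slash_action_eq' _ ⟨γ, rfl⟩)]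
        exact hlim.isBigO_one ℝ }
  have hG0 : G ≠ 0 := fun h ↦ by simp [h, qExpansion_zero] at hG
  obtain ⟨c, hc⟩ := (finrank_eq_one_iff_of_nonzero' G hG0).mp
    (Module.rank_eq_one_iff_finrank_eq_one.mp hdim) H
  have hc' : ∀ w, c * G w = Derivative.serreDerivative (k : ℤ) F w := fun w ↦
    congrArg (fun f : ModularForm 𝒮ℒ (k + 2 : ℤ) ↦ f w) hc
  have hcv : c = -(k / 12 : ℂ) := by
    have h1 : Tendsto (fun w ↦ c * G w) atImInfty (𝓝 c) := by
      simpa [hG] using (tendsto_levelOne G).const_mul c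
    exact tendsto_nhds_unique (h1.congr hc') hlim
  have := hc' z
  rw [hcv, Derivative.serreDerivative_apply] at this
  simp only [Int.cast_natCast] at this
  linear_combination -this

theorem deriv_e4 (z : ℍ) :
    Derivative.normalizedDerivOfComplex e4 z
      = (EisensteinSeries.E2 z * e4 z - e6 z) / 3 := by
  have h := serre_eq_smul (k := 4) ModularForm.E₄
    ModularForm.levelOne_weight_six_rank_one ModularForm.E₆
    (EisensteinSeries.E_qExpansion_coeff_zero _ ⟨3, rfl⟩)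
    (EisensteinSeries.E_qExpansion_coeff_zero _ ⟨2, rfl⟩) z
  rw [show e4 = ⇑ModularForm.E₄ from rfl, show e6 z = ModularForm.E₆ z from rfl, h]
  push_cast
  ring

theorem deriv_e6 (z : ℍ) :
    Derivative.normalizedDerivOfComplex e6 z
      = (EisensteinSeries.E2 z * e6 z - e4 z ^ 2) / 2 := by
  have hdim : Module.rank ℂ (ModularForm 𝒮ℒ 8) = 1 := by
    have := ModularForm.dimension_level_one 8 ⟨4, rfl⟩
    simpa [Nat.ModEq] using this
  have hq : (qExpansion 1 (ModularForm.E₄.mul ModularForm.E₄)).coeff 0 = 1 := by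
    rw [ModularForm.qExpansion_mul one_pos one_mem_strictPeriods_SL,
      PowerSeries.coeff_zero_eq_constantCoeff, map_mul]
    rw [← PowerSeries.coeff_zero_eq_constantCoeff_apply]
    simp [EisensteinSeries.E_qExpansion_coeff_zero _ ⟨2, rfl⟩,
      -PowerSeries.coeff_zero_eq_constantCoeff]
  have h := serre_eq_smul (k := 6) ModularForm.E₆
    hdim (ModularForm.E₄.mul ModularForm.E₄) hq
    (EisensteinSeries.E_qExpansion_coeff_zero _ ⟨3, rfl⟩) z
  rw [show e6 = ⇑ModularForm.E₆ from rfl, show e4 z = ModularForm.E₄ z from rfl, h]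
  simp only [ModularForm.coe_mul, Pi.mul_apply]
  push_cast
  ring

theorem e4_ne_zero_or (z : ℍ) : e4 z ≠ 0 ∨ e6 z ≠ 0 := by
  by_contra h
  push Not at h
  refine ModularForm.discriminant_ne_zero z ?_
  show disc z = 0
  rw [disc_eq, h.1, h.2]
  simp

/-- The modular invariant. -/
def jInv (z : ℍ) : ℂ := e4 z ^ 3 / disc z

theorem apply_smul_of_slash_eq {k : ℤ} {f g : ℍ → ℂ} {γ : SL(2, ℤ)} (h : f ∣[k] γ = g) (z : ℍ) :
    f (γ • z) = (denom γ z) ^ k * g z := by
  rw [← h, ModularForm.SL_slash_apply, mul_comm, mul_assoc, ← zpow_add₀ (denom_ne_zero γ z),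
    neg_add_cancel, zpow_zero, mul_one]

theorem levelOne_apply {k : ℤ} (f : ModularForm 𝒮ℒ k) (γ : SL(2, ℤ)) (z : ℍ) :
    f (γ • z) = (denom γ z) ^ k * f z :=
  apply_smul_of_slash_eq (f.slash_action_eq' _ ⟨γ, rfl⟩) z

theorem e4_smul (γ : SL(2, ℤ)) (z : ℍ) : e4 (γ • z) = (denom γ z) ^ (4 : ℤ) * e4 z :=
  levelOne_apply ModularForm.E₄ γ z

theorem e6_smul (γ : SL(2, ℤ)) (z : ℍ) : e6 (γ • z) = (denom γ z) ^ (6 : ℤ) * e6 z :=
  levelOne_apply ModularForm.E₆ γ z

theorem disc_smul (γ : SL(2, ℤ)) (z : ℍ) : disc (γ • z) = (denom γ z) ^ (12 : ℤ) * disc z :=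
  apply_smul_of_slash_eq (CuspForm.discriminant.slash_action_eq' _ ⟨γ, rfl⟩) z

theorem jInv_smul (γ : SL(2, ℤ)) (z : ℍ) : jInv (γ • z) = jInv z := by
  have hd := denom_ne_zero γ z
  rw [jInv, jInv, e4_smul, disc_smul, mul_pow, ← zpow_natCast (_ ^ (4 : ℤ)) 3, ← zpow_mul]
  exact mul_div_mul_left _ _ (zpow_ne_zero _ hd)

theorem mdiff_e4 : MDiff e4 := ModularFormClass.holo ModularForm.E₄
theorem mdiff_e6 : MDiff e6 := ModularFormClass.holo ModularForm.E₆
theorem mdiff_disc : MDiff disc := CuspFormClass.holo CuspForm.discriminant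

theorem mdiff_jInv : MDiff jInv :=
  ((mdiff_e4.pow 3).div mdiff_disc) ModularForm.discriminant_ne_zero

theorem tendsto_disc : Tendsto disc atImInfty (𝓝 0) := ModularForm.discriminant_isZeroAtImInfty

theorem tendsto_inv_jInv : Tendsto (fun z ↦ (jInv z)⁻¹) atImInfty (𝓝 0) := by
  have := tendsto_disc.div (tendsto_e4.pow 3) (by simp)
  simpa [jInv, Pi.div_def] using this

theorem exists_height_jInv (R : ℝ) : ∃ y : ℝ, ∀ z : ℍ, y ≤ z.im → R < ‖jInv z‖ := by
  have h1 := (tendsto_e4.pow 3).eventually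
    (eventually_ne_nhds (show (1 : ℂ) ^ 3 ≠ 0 by simp))
  have h2 := Metric.tendsto_nhds.mp tendsto_inv_jInv (|R| + 1)⁻¹ (by positivity)
  obtain ⟨y, hy⟩ := (atImInfty_mem _).mp (h1.and h2)
  refine ⟨y, fun z hz ↦ ?_⟩
  have hz' := hy z hz
  simp only [Set.mem_ofPred_eq, dist_zero_right, norm_inv] at hz'
  have hj : jInv z ≠ 0 := div_ne_zero hz'.1 (ModularForm.discriminant_ne_zero z)
  have := (inv_lt_inv₀ (norm_pos_iff.mpr hj) (by positivity)).mp hz'.2
  linarith [le_abs_self R]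

theorem exists_bound_jInv (y : ℝ) :
    ∃ R : ℝ, ∀ z ∈ ModularGroup.truncatedFundamentalDomain y, ‖jInv z‖ ≤ R :=
  (ModularGroup.isCompact_truncatedFundamentalDomain y).exists_bound_of_continuousOn
    mdiff_jInv.continuous.continuousOn

/-- Two points are inequivalent under `SL(2, ℤ)`. -/
def Inequiv (z w : ℍ) : Prop := ∀ γ : SL(2, ℤ), γ • z ≠ w

/-- The set of values of `j` taken at two inequivalent points. -/
def doubleValues : Set ℂ := {l | ∃ z w : ℍ, jInv z = l ∧ jInv w = l ∧ Inequiv z w}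

theorem deriv_jInv_ne_zero {z : ℍ} (h4 : e4 z ≠ 0) (h6 : e6 z ≠ 0) :
    deriv (ext' jInv) z ≠ 0 := by
  have hd4 : DifferentiableAt ℂ (ext' e4) z :=
    UpperHalfPlane.mdifferentiableAt_iff.mp (mdiff_e4 z)
  have hd6 : DifferentiableAt ℂ (ext' e6) z :=
    UpperHalfPlane.mdifferentiableAt_iff.mp (mdiff_e6 z)
  have hD : HasDerivAt (ext' disc)
      ((3 * e4 z ^ 2 * deriv (ext' e4) z - 2 * e6 z * deriv (ext' e6) z) / 1728) z := by
    have h := (((hd4.hasDerivAt.pow 3).sub (hd6.hasDerivAt.pow 2)).div_const (1728 : ℂ))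
    simp only [ext_apply, Nat.cast_ofNat, Nat.add_one_sub_one, pow_one] at h
    exact h.congr_of_eventuallyEq (Eventually.of_forall fun w ↦ disc_eq (ofComplex w))
  have hne : ext' disc z ≠ 0 := by rw [ext_apply]; exact ModularForm.discriminant_ne_zero z
  have hJ := (hd4.hasDerivAt.pow 3).div hD hne
  rw [show ext' jInv = (fun w ↦ (ext' e4 w) ^ 3 / ext' disc w) from rfl]
  erw [hJ.deriv]
  have e1 : deriv (ext' e4) z = 2 * π * Complex.I * Derivative.normalizedDerivOfComplex e4 z := by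
    rw [Derivative.normalizedDerivOfComplex, ← mul_assoc,
      mul_inv_cancel₀ (by simp [Real.pi_ne_zero]), one_mul]
  have e2 : deriv (ext' e6) z = 2 * π * Complex.I * Derivative.normalizedDerivOfComplex e6 z := by
    rw [Derivative.normalizedDerivOfComplex, ← mul_assoc,
      mul_inv_cancel₀ (by simp [Real.pi_ne_zero]), one_mul]
  have hdz : disc z ≠ 0 := ModularForm.discriminant_ne_zero z
  simp only [Pi.pow_apply, ext_apply, Nat.cast_ofNat, Nat.add_one_sub_one, e1, e2, deriv_e4,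
    deriv_e6]
  rw [div_ne_zero_iff]
  refine ⟨?_, pow_ne_zero _ hdz⟩
  have hkey : 3 * e4 z ^ 2 *
        (2 * π * Complex.I * ((EisensteinSeries.E2 z * e4 z - e6 z) / 3)) * disc z -
      e4 z ^ 3 * ((3 * e4 z ^ 2 * (2 * π * Complex.I * ((EisensteinSeries.E2 z * e4 z - e6 z) / 3))
        - 2 * e6 z * (2 * π * Complex.I * ((EisensteinSeries.E2 z * e6 z - e4 z ^ 2) / 2))) / 1728)
      = -(2 * π * Complex.I) * e4 z ^ 2 * e6 z * disc z := by
    rw [disc_eq]; ring
  rw [hkey]
  simp [h4, h6, hdz, Real.pi_ne_zero, Complex.I_ne_zero]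

theorem injOn_jInv_of_deriv_ne_zero {z : ℍ} (h : deriv (ext' jInv) z ≠ 0) :
    ∀ᶠ p : ℍ × ℍ in 𝓝 (z, z), jInv p.1 = jInv p.2 → p.1 = p.2 := by
  have hs := (analyticAt_ext mdiff_jInv z).hasStrictDerivAt
  obtain ⟨U, hU, hU'⟩ := eventually_iff_exists_mem.mp (hs.eventually_left_inverse h)
  have hc := UpperHalfPlane.continuous_coe
  have h1 : ∀ᶠ p : ℍ × ℍ in 𝓝 (z, z), (p.1 : ℂ) ∈ U :=
    (hc.comp continuous_fst).continuousAt.preimage_mem_nhds (by simpa using hU)
  have h2 : ∀ᶠ p : ℍ × ℍ in 𝓝 (z, z), (p.2 : ℂ) ∈ U :=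
    (hc.comp continuous_snd).continuousAt.preimage_mem_nhds (by simpa using hU)
  filter_upwards [h1, h2] with p hp1 hp2 hpe
  apply UpperHalfPlane.ext
  rw [← hU' _ hp1, ← hU' _ hp2, ext_apply, ext_apply, hpe]

theorem not_eventuallyEq_const_jInv (z : ℍ) :
    ¬ ∀ᶠ w in 𝓝 (z : ℂ), ext' jInv w = ext' jInv z := by
  intro h
  have hf : MDiff (fun w ↦ jInv w - jInv z) := mdiff_jInv.sub mdifferentiable_const
  have h' : ∀ᶠ w : ℍ in 𝓝[≠] z, jInv w - jInv z = 0 := by
    have := UpperHalfPlane.continuous_coe.continuousAt.eventually h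
    simpa [ext_apply, sub_eq_zero] using this.filter_mono nhdsWithin_le_nhds
  have h0 := congrFun (UpperHalfPlane.eq_zero_of_frequently hf h'.frequently)
  obtain ⟨y, hy⟩ := exists_height_jInv ‖jInv z‖
  have hw : 0 < max y 1 := lt_max_of_lt_right one_pos
  have := h0 ⟨⟨0, max y 1⟩, hw⟩
  simp only [Pi.zero_apply, sub_eq_zero] at this
  exact (hy ⟨⟨0, max y 1⟩, hw⟩ (le_max_left y 1)).ne' (by rw [this])

theorem isOpen_doubleValues : IsOpen doubleValues := by
  rw [isOpen_iff_mem_nhds]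
  rintro _ ⟨z, w, rfl, hw, hzw⟩
  have hsep : ∃ U ∈ 𝓝 z, ∃ V ∈ 𝓝 w, ∀ z' ∈ U, ∀ w' ∈ V, Inequiv z' w' := by
    obtain ⟨K, hK, hKz⟩ := exists_compact_mem_nhds z
    obtain ⟨L, hL, hLw⟩ := exists_compact_mem_nhds w
    have hfin : {γ : 𝒮ℒ | ((γ • ·) '' K ∩ L).Nonempty}.Finite :=
      ProperlyDiscontinuousSMul.finite_disjoint_inter_image (Γ := 𝒮ℒ) hK hL
    have : ∀ γ : 𝒮ℒ, ∀ᶠ p : ℍ × ℍ in 𝓝 (z, w), γ • p.1 ≠ p.2 := by
      intro γ
      have hne : γ • z ≠ w := by
        obtain ⟨g, hg⟩ := γ.2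
        intro hγ
        refine hzw g ?_
        rw [← hγ, Subgroup.smul_def, ← hg]
        rfl
      exact (isOpen_ne_fun ((continuous_const_smul γ).comp continuous_fst)
        continuous_snd).eventually_mem hne
    have h1 := (hfin.eventually_all).mpr fun γ _ ↦ this γ
    have h2 : ∀ᶠ p : ℍ × ℍ in 𝓝 (z, w), p.1 ∈ K ∧ p.2 ∈ L := by
      rw [nhds_prod_eq]; exact prod_mem_prod hKz hLw
    obtain ⟨U, hU, V, hV, hUV⟩ := mem_nhds_prod_iff.mp (h1.and h2)
    refine ⟨U, hU, V, hV, fun z' hz' w' hw' g hg ↦ ?_⟩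
    have hp := hUV (Set.mk_mem_prod hz' hw')
    have hg' : (⟨Matrix.SpecialLinearGroup.mapGL ℝ g, g, rfl⟩ : 𝒮ℒ) • z' = w' := hg
    exact hp.1 _ ⟨w', ⟨z', hp.2.1, hg'⟩, hp.2.2⟩ hg'
  obtain ⟨U, hU, V, hV, hUV⟩ := hsep
  have hopen : ∀ (x : ℍ) (W : Set ℍ), W ∈ 𝓝 x → jInv '' W ∈ 𝓝 (jInv x) := by
    intro x W hW
    have h := (analyticAt_ext mdiff_jInv x).eventually_constant_or_nhds_le_map_nhds.resolve_left
      (not_eventuallyEq_const_jInv x)
    rw [ext_apply] at h
    apply h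
    rw [mem_map, ← UpperHalfPlane.isOpenEmbedding_coe.map_nhds_eq, mem_map]
    filter_upwards [hW] with y hy
    exact ⟨y, hy, (ext_apply jInv y).symm⟩
  have h3 := hopen z U hU
  have h4 := hopen w V hV
  rw [hw] at h4
  filter_upwards [h3, h4] with l hl1 hl2
  obtain ⟨a, ha, rfl⟩ := hl1
  obtain ⟨b, hb, hb'⟩ := hl2
  exact ⟨a, b, rfl, hb', hUV a ha b hb⟩

theorem exists_mem_fd_of_mem_doubleValues {l : ℂ} (hl : l ∈ doubleValues) :
    ∃ z w : ℍ, z ∈ ModularGroup.fd ∧ w ∈ ModularGroup.fd ∧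
      jInv z = l ∧ jInv w = l ∧ Inequiv z w := by
  obtain ⟨z, w, hz, hw, hzw⟩ := hl
  obtain ⟨g, hg⟩ := ModularGroup.exists_smul_mem_fd z
  obtain ⟨h, hh⟩ := ModularGroup.exists_smul_mem_fd w
  refine ⟨g • z, h • w, hg, hh, by rw [jInv_smul, hz], by rw [jInv_smul, hw], fun γ hγ ↦ ?_⟩
  apply hzw (h⁻¹ * γ * g)
  rw [mul_smul, mul_smul, hγ, inv_smul_smul]

theorem isClosed_doubleValues_inter :
    ∀ l : ℂ, l ≠ 0 → l ≠ 1728 → l ∈ closure doubleValues → l ∈ doubleValues := by
  intro l hl0 hl1 hl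
  obtain ⟨u, hu, hul⟩ := mem_closure_iff_seq_limit.mp hl
  choose zs ws hzs hws hjz hjw hne using fun n ↦ exists_mem_fd_of_mem_doubleValues (hu n)
  obtain ⟨R, hR⟩ := hul.norm.bddAbove_range
  obtain ⟨y, hy⟩ := exists_height_jInv R
  have hzK : ∀ n, zs n ∈ ModularGroup.truncatedFundamentalDomain y := fun n ↦ ⟨hzs n, by
    by_contra h
    exact absurd (hy _ (not_le.mp h).le) (not_lt.mpr (by rw [hjz]; exact hR ⟨n, rfl⟩))⟩
  have hwK : ∀ n, ws n ∈ ModularGroup.truncatedFundamentalDomain y := fun n ↦ ⟨hws n, by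
    by_contra h
    exact absurd (hy _ (not_le.mp h).le) (not_lt.mpr (by rw [hjw]; exact hR ⟨n, rfl⟩))⟩
  obtain ⟨z, -, φ, hφ, hφz⟩ :=
    (ModularGroup.isCompact_truncatedFundamentalDomain y).tendsto_subseq hzK
  obtain ⟨w, -, ψ, hψ, hψw⟩ :=
    (ModularGroup.isCompact_truncatedFundamentalDomain y).tendsto_subseq (fun n ↦ hwK (φ n))
  have hjz' : jInv z = l := by
    refine tendsto_nhds_unique ((mdiff_jInv.continuous.tendsto z).comp hφz) ?_
    simpa [Function.comp_def, hjz] using hul.comp hφ.tendsto_atTop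
  have hjw' : jInv w = l := by
    refine tendsto_nhds_unique ((mdiff_jInv.continuous.tendsto w).comp hψw) ?_
    simpa [Function.comp_def, hjw] using hul.comp (hφ.comp hψ).tendsto_atTop
  refine ⟨z, w, hjz', hjw', fun γ hγ ↦ ?_⟩
  have h4 : e4 w ≠ 0 := fun h ↦ hl0 (by rw [← hjw', jInv, h]; simp)
  have h6 : e6 w ≠ 0 := fun h ↦ hl1 (by
    rw [← hjw', jInv, disc_eq, h]
    field_simp
    simp)
  have hloc := injOn_jInv_of_deriv_ne_zero (deriv_jInv_ne_zero h4 h6)
  have ht : Tendsto (fun n ↦ (γ • zs (φ (ψ n)), ws (φ (ψ n)))) atTop (𝓝 (w, w)) := by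
    refine Tendsto.prodMk_nhds ?_ hψw
    rw [← hγ]
    exact ((continuous_const_smul (Matrix.SpecialLinearGroup.mapGL ℝ γ)).tendsto z).comp
      (hφz.comp hψ.tendsto_atTop)
  obtain ⟨n, hn⟩ := (ht.eventually hloc).exists
  exact hne (φ (ψ n)) γ (hn (by simp only [jInv_smul, hjz, hjw]))

theorem qParam_one_injective {z w : ℍ}
    (h : Function.Periodic.qParam 1 (z : ℂ) = Function.Periodic.qParam 1 (w : ℂ)) :
    ∃ γ : SL(2, ℤ), γ • z = w := by
  simp only [Function.Periodic.qParam, Complex.ofReal_one, div_one] at h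
  obtain ⟨n, hn⟩ := Complex.exp_eq_exp_iff_exists_int.mp h
  refine ⟨T ^ (-n), UpperHalfPlane.ext ?_⟩
  rw [ModularGroup.coe_T_zpow_smul_eq]
  have h2 : (2 * π * Complex.I : ℂ) ≠ 0 := by simp [Real.pi_ne_zero]
  have h3 : (z : ℂ) = w + n := by
    apply mul_left_cancel₀ h2
    linear_combination hn
  push_cast
  linear_combination h3

theorem exists_large_not_mem_doubleValues :
    ∃ l : ℂ, l ≠ 0 ∧ l ≠ 1728 ∧ l ∉ doubleValues := by
  let cD := cuspFunction 1 disc
  let c4 := cuspFunction 1 e4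
  have haD : AnalyticAt ℂ cD 0 :=
    ModularFormClass.analyticAt_cuspFunction_zero CuspForm.discriminant one_pos
      one_mem_strictPeriods_SL
  have ha4 : AnalyticAt ℂ c4 0 :=
    ModularFormClass.analyticAt_cuspFunction_zero ModularForm.E₄ one_pos one_mem_strictPeriods_SL
  have hc4 : c4 0 = 1 := by
    have := qExpansion_coeff (h := 1) e4 0
    simpa [c4, e4, EisensteinSeries.E_qExpansion_coeff_zero _ (⟨2, rfl⟩ : Even 4),
      -PowerSeries.coeff_zero_eq_constantCoeff] using this.symm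
  have hcD : cD 0 = 0 :=
    UpperHalfPlane.IsZeroAtImInfty.cuspFunction_apply_zero
      ModularForm.discriminant_isZeroAtImInfty one_pos
  have hdD : deriv cD 0 = 1 := by
    have := qExpansion_coeff (h := 1) disc 1
    simpa [cD, ModularForm.discriminant_qExpansion_coeff_one] using this.symm
  let Q : ℂ → ℂ := fun q ↦ cD q / c4 q ^ 3
  have hQa : AnalyticAt ℂ Q 0 := haD.fun_div (ha4.fun_pow 3) (by simp [hc4])
  have hQd : deriv Q 0 ≠ 0 := by
    have := haD.differentiableAt.hasDerivAt.fun_div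
      (ha4.differentiableAt.hasDerivAt.fun_pow 3) (by simp [hc4])
    rw [this.deriv]
    simp [hc4, hcD, hdD]
  obtain ⟨U, hU, hU'⟩ := eventually_iff_exists_mem.mp
    (hQa.hasStrictDerivAt.eventually_left_inverse hQd)
  obtain ⟨y, hy⟩ := (atImInfty_mem _).mp
    ((qParam_tendsto_atImInfty one_pos).eventually hU)
  obtain ⟨R, hR⟩ := exists_bound_jInv y
  refine ⟨((|R| + 1729 : ℝ) : ℂ), ?_, ?_, ?_⟩
  · exact_mod_cast (by positivity : (|R| + 1729 : ℝ) ≠ 0)
  · intro h
    have : (|R| + 1729 : ℝ) = 1728 := by exact_mod_cast h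
    linarith [abs_nonneg R]
  intro hl
  obtain ⟨z, w, hz, hw, hjz, hjw, hne⟩ := exists_mem_fd_of_mem_doubleValues hl
  have hbig : ∀ v : ℍ, v ∈ ModularGroup.fd → jInv v = ((|R| + 1729 : ℝ) : ℂ) →
      Function.Periodic.qParam 1 (v : ℂ) ∈ U := by
    intro v hv hjv
    refine hy v ?_
    by_contra h
    have := hR v ⟨hv, (not_le.mp h).le⟩
    rw [hjv, Complex.norm_real, Real.norm_eq_abs] at this
    linarith [le_abs_self (|R| + 1729), le_abs_self R]
  have hQ : ∀ v : ℍ, Q (Function.Periodic.qParam 1 (v : ℂ)) = (jInv v)⁻¹ := by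
    intro v
    have e1 : cD (Function.Periodic.qParam 1 (v : ℂ)) = disc v :=
      SlashInvariantFormClass.eq_cuspFunction CuspForm.discriminant v one_mem_strictPeriods_SL
        one_ne_zero
    have e2 : c4 (Function.Periodic.qParam 1 (v : ℂ)) = e4 v :=
      SlashInvariantFormClass.eq_cuspFunction ModularForm.E₄ v one_mem_strictPeriods_SL one_ne_zero
    simp [Q, e1, e2, jInv]
  have := hU' _ (hbig z hz hjz)
  rw [hQ, hjz, ← hjw, ← hQ, hU' _ (hbig w hw hjw)] at this
  obtain ⟨γ, hγ⟩ := qParam_one_injective this.symm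
  exact hne γ hγ

/-- If `j` takes the same value at two points they lie in one orbit. -/
theorem jInv_injective {z w : ℍ} (h : jInv z = jInv w) : ∃ γ : SL(2, ℤ), γ • z = w := by
  by_contra hne
  push Not at hne
  have hB : (doubleValues).Nonempty := ⟨jInv z, z, w, rfl, h.symm, hne⟩
  let U : Set ℂ := ({0, 1728} : Set ℂ)ᶜ
  have hUconn : IsPreconnected U :=
    ((Set.toFinite ({0, 1728} : Set ℂ)).countable.isConnected_compl_of_one_lt_rank
      (by simp)).isPreconnected
  have hUd : (U ∩ doubleValues).Nonempty := by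
    obtain ⟨x, hx⟩ := hB
    have hd : Dense U := (Set.toFinite _).countable.dense_compl ℝ
    exact Set.inter_comm U doubleValues ▸
      hd.inter_open_nonempty doubleValues isOpen_doubleValues ⟨x, hx⟩
  obtain ⟨l, hl0, hl1, hl⟩ := exists_large_not_mem_doubleValues
  have hlU : l ∈ U := by simp [U, hl0, hl1]
  have hsub : U ⊆ doubleValues :=
    hUconn.subset_of_closure_inter_subset isOpen_doubleValues hUd (fun x hx ↦
      isClosed_doubleValues_inter x
        (fun h ↦ hx.2 (Or.inl h)) (fun h ↦ hx.2 (Or.inr h)) hx.1)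
  exact hl (hsub hlU)

theorem ST_smul_rho : (S * T) • UpperHalfPlane.ρ = UpperHalfPlane.ρ :=
  ModularGroup.stabilizer_ρ.mpr (by simp)

theorem S_smul_I : S • UpperHalfPlane.I = UpperHalfPlane.I :=
  ModularGroup.stabilizer_I.mpr (by simp)

theorem denom_S_I : denom S (UpperHalfPlane.I : ℂ) = Complex.I := by
  simp [denom, ModularGroup.S]

theorem denom_ST_rho : denom (S * T : SL(2, ℤ)) (UpperHalfPlane.ρ : ℂ)
    = (UpperHalfPlane.ρ : ℂ) + 1 := by
  rw [ModularGroup.denom_apply]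
  simp [ModularGroup.S, ModularGroup.T]

theorem rho_succ_sq : ((UpperHalfPlane.ρ : ℂ) + 1) ^ 2 = UpperHalfPlane.ρ := by
  linear_combination UpperHalfPlane.ρ_sq

theorem rho_cube : (UpperHalfPlane.ρ : ℂ) ^ 3 = 1 := by
  linear_combination ((UpperHalfPlane.ρ : ℂ) - 1) * UpperHalfPlane.ρ_sq

theorem rho_ne_one : (UpperHalfPlane.ρ : ℂ) ≠ 1 := fun h ↦ by
  have := UpperHalfPlane.ρ_sq
  rw [h] at this
  norm_num at this

theorem e4_rho : e4 UpperHalfPlane.ρ = 0 := by
  have h := e4_smul (S * T) UpperHalfPlane.ρ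
  rw [ST_smul_rho, denom_ST_rho] at h
  by_contra h0
  have h1 : ((UpperHalfPlane.ρ : ℂ) + 1) ^ (4 : ℤ) = 1 :=
    (mul_eq_right₀ h0).mp h.symm
  have h2 : ((UpperHalfPlane.ρ : ℂ) + 1) ^ (4 : ℤ) = (UpperHalfPlane.ρ : ℂ) ^ 2 := by
    rw [zpow_ofNat, show 4 = 2 * 2 from rfl, pow_mul, rho_succ_sq]
  rw [h2] at h1
  apply rho_ne_one
  linear_combination rho_cube - (UpperHalfPlane.ρ : ℂ) * h1

theorem e6_I : e6 UpperHalfPlane.I = 0 := by
  have h := e6_smul S UpperHalfPlane.I
  rw [S_smul_I, denom_S_I, zpow_ofNat, show 6 = 4 + 2 from rfl, pow_add, Complex.I_pow_four,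
    Complex.I_sq] at h
  linear_combination h / 2

end Fermat.Agent.DimLower
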