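/-
Vector valued forms for `SL(2, ℤ)` attached to a finite `SL(2, ℤ)`-set.
-/
import Fermat.Agent.DimLower.LevelOne
import Mathlib.Topology.Separation.Connected

set_option autoImplicit false

noncomputable section

namespace Fermat.Agent.DimLower

open UpperHalfPlane Filter Topology Complex Asymptotics
open scoped MatrixGroups ModularForm Manifold Real
open ModularGroup (S T)

/-- A scalar form of level one and weight `k`. -/
structure IsL1 (k : ℤ) (f : ℍ → ℂ) : Prop where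
  mdiff : MDiff f
  slash : ∀ γ : SL(2, ℤ), f ∣[k] γ = f
  bdd : IsBoundedAtImInfty f

variable {X : Type*} [MulAction SL(2, ℤ) X]

/-- A vector valued form of weight `k` for the permutation representation on `X`. -/
structure IsVF (k : ℤ) (F : X → ℍ → ℂ) : Prop where
  mdiff : ∀ x, MDiff (F x)
  slash : ∀ (γ : SL(2, ℤ)) (x : X), F x ∣[k] γ = F (γ⁻¹ • x)
  bdd : ∀ x, IsBoundedAtImInfty (F x)

/-- A vector valued cusp form. -/
structure IsVC (k : ℤ) (F : X → ℍ → ℂ) : Prop extends IsVF k F where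
  zero : ∀ x, IsZeroAtImInfty (F x)

namespace IsL1

variable {k l : ℤ} {f g : ℍ → ℂ}

/-- A level one form as a `ModularForm`. -/
def toForm (h : IsL1 k f) : ModularForm 𝒮ℒ k where
  toFun := f
  slash_action_eq' := fun γ hγ ↦ by obtain ⟨g, rfl⟩ := hγ; exact h.slash g
  holo' := h.mdiff
  bdd_at_cusps' := fun {c} hc ↦ by
    rw [Subgroup.IsArithmetic.isCusp_iff_isCusp_SL2Z] at hc
    rw [OnePoint.isBoundedAt_iff_forall_SL2Z hc]
    intro γ _
    rw [h.slash γ]
    exact h.bdd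

/-- A level one cusp form as a `CuspForm`. -/
def toCusp (h : IsL1 k f) (h0 : IsZeroAtImInfty f) : CuspForm 𝒮ℒ k where
  toFun := f
  slash_action_eq' := fun γ hγ ↦ by obtain ⟨g, rfl⟩ := hγ; exact h.slash g
  holo' := h.mdiff
  zero_at_cusps' := fun {c} hc ↦ by
    rw [Subgroup.IsArithmetic.isCusp_iff_isCusp_SL2Z] at hc
    rw [OnePoint.isZeroAt_iff_forall_SL2Z hc]
    intro γ _
    rw [h.slash γ]
    exact h0

theorem apply_smul (h : IsL1 k f) (γ : SL(2, ℤ)) (z : ℍ) :
    f (γ • z) = (denom γ z) ^ k * f z :=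
  apply_smul_of_slash_eq (h.slash γ) z

theorem of_form (f : ModularForm 𝒮ℒ k) : IsL1 k f :=
  ⟨ModularFormClass.holo f, fun γ ↦ f.slash_action_eq' _ ⟨γ, rfl⟩, ModularFormClass.bdd_at_infty f⟩

theorem of_eq (h : IsL1 k f) {k' : ℤ} (hk : k = k') : IsL1 k' f := hk ▸ h

protected theorem mul (h : IsL1 k f) (h' : IsL1 l g) : IsL1 (k + l) (f * g) :=
  ⟨h.mdiff.mul h'.mdiff, fun γ ↦ by rw [ModularForm.mul_slash_SL2, h.slash, h'.slash],
    h.bdd.mul h'.bdd⟩

protected theorem one : IsL1 0 (1 : ℍ → ℂ) := by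
  refine ⟨mdifferentiable_const, fun γ ↦ ModularForm.is_invariant_one γ, ?_⟩
  exact (isBigO_refl _ _ : (1 : ℍ → ℂ) =O[atImInfty] (1 : ℍ → ℂ)).trans (isBigO_const_const _
    one_ne_zero _)

protected theorem pow (h : IsL1 k f) (n : ℕ) : IsL1 (n * k) (f ^ n) := by
  induction n with
  | zero => simpa using IsL1.one
  | succ n ih => exact pow_succ f n ▸ (ih.mul h).of_eq (by push_cast; ring)

theorem e4 : IsL1 4 DimLower.e4 := of_form ModularForm.E₄

theorem e6 : IsL1 6 DimLower.e6 := of_form ModularForm.E₆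

theorem disc : IsL1 12 DimLower.disc :=
  of_form (CuspForm.toModularFormₗ CuspForm.discriminant)

theorem eq_zero_of_neg (h : IsL1 k f) (hk : k < 0) : f = 0 :=
  ModularFormClass.levelOne_neg_weight_eq_zero hk h.toForm

theorem exists_const (h : IsL1 0 f) : ∃ c, ∀ z, f z = c := by
  obtain ⟨c, hc⟩ := ModularFormClass.levelOne_weight_zero_const h.toForm
  exact ⟨c, fun z ↦ congrFun hc z⟩

theorem eq_zero_of_cusp (h : IsL1 k f) (h0 : IsZeroAtImInfty f) (hk : k < 12) : f = 0 := by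
  have := rank_zero_iff_forall_zero.mp (CuspForm.rank_eq_zero_of_weight_lt_twelve hk)
    (h.toCusp h0)
  exact congrArg DFunLike.coe this

theorem exists_smul_disc (h : IsL1 12 f) (h0 : IsZeroAtImInfty f) :
    ∃ c : ℂ, ∀ z, f z = c * DimLower.disc z := by
  obtain ⟨c, hc⟩ := CuspForm.exists_smul_discriminant_of_weight_eq_twelve (h.toCusp h0)
  exact ⟨c, fun z ↦ (congrArg (fun F : CuspForm 𝒮ℒ 12 ↦ F z) hc).symm⟩

end IsL1

namespace IsVF

variable {k l : ℤ} {F G : X → ℍ → ℂ}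

theorem apply_smul (h : IsVF k F) (γ : SL(2, ℤ)) (x : X) (z : ℍ) :
    F x (γ • z) = (denom γ z) ^ k * F (γ⁻¹ • x) z :=
  apply_smul_of_slash_eq (h.slash γ x) z

theorem of_eq (h : IsVF k F) {k' : ℤ} (hk : k = k') : IsVF k' F := hk ▸ h

protected theorem add (h : IsVF k F) (h' : IsVF k G) : IsVF k (F + G) :=
  ⟨fun x ↦ (h.mdiff x).add (h'.mdiff x),
    fun γ x ↦ by simp only [Pi.add_apply, SlashAction.add_slash, h.slash, h'.slash],
    fun x ↦ (h.bdd x).add (h'.bdd x)⟩

protected theorem zero : IsVF k (0 : X → ℍ → ℂ) :=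
  ⟨fun _ ↦ mdifferentiable_const, fun γ _ ↦ SlashAction.zero_slash k γ,
    fun _ ↦ zero_form_isBoundedAtImInfty⟩

protected theorem smul (h : IsVF k F) (c : ℂ) : IsVF k (c • F) :=
  ⟨fun x ↦ (h.mdiff x).const_smul c,
    fun γ x ↦ by simp only [Pi.smul_apply, ModularForm.SL_smul_slash, h.slash],
    fun x ↦ (h.bdd x).const_mul_left c⟩

protected theorem sum {ι : Type*} (s : Finset ι) {F : ι → X → ℍ → ℂ}
    (h : ∀ i ∈ s, IsVF k (F i)) : IsVF k (∑ i ∈ s, F i) :=
  Finset.sum_induction _ (IsVF k) (fun _ _ ↦ IsVF.add) IsVF.zero h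

theorem mul_L1 (h : IsVF k F) {f : ℍ → ℂ} (hf : IsL1 l f) : IsVF (l + k) (fun x ↦ f * F x) :=
  ⟨fun x ↦ hf.mdiff.mul (h.mdiff x),
    fun γ x ↦ by rw [ModularForm.mul_slash_SL2, hf.slash, h.slash],
    fun x ↦ hf.bdd.mul (h.bdd x)⟩

protected theorem mul (h : IsVF k F) (h' : IsVF l G) : IsVF (k + l) (F * G) :=
  ⟨fun x ↦ (h.mdiff x).mul (h'.mdiff x),
    fun γ x ↦ by simp only [Pi.mul_apply, ModularForm.mul_slash_SL2, h.slash, h'.slash],
    fun x ↦ (h.bdd x).mul (h'.bdd x)⟩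

protected theorem one : IsVF 0 (1 : X → ℍ → ℂ) :=
  ⟨fun _ ↦ mdifferentiable_const, fun γ _ ↦ ModularForm.is_invariant_one γ,
    fun _ ↦ IsL1.one.bdd⟩

protected theorem pow (h : IsVF k F) (n : ℕ) : IsVF (n * k) (F ^ n) := by
  induction n with
  | zero => simpa using IsVF.one
  | succ n ih => exact pow_succ F n ▸ (ih.mul h).of_eq (by push_cast; ring)

theorem sum_isL1 [Fintype X] (h : IsVF k F) : IsL1 k (∑ x, F x) := by
  refine ⟨Finset.sum_induction _ (fun f : ℍ → ℂ ↦ MDiff f) (fun _ _ ↦ MDifferentiable.add)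
    mdifferentiable_const (fun x _ ↦ h.mdiff x), fun γ ↦ ?_, ?_⟩
  · simp only [SlashAction.sum_slash, h.slash]
    exact Equiv.sum_comp (MulAction.toPerm γ⁻¹) F
  · have := IsBigO.fun_sum (s := (Finset.univ : Finset X)) fun x _ ↦ h.bdd x
    simpa [IsBoundedAtImInfty, BoundedAtFilter, Finset.sum_fn] using this

theorem apply_T (h : IsVF k F) (x : X) (z : ℍ) : F x (T • z) = F (T⁻¹ • x) z := by
  have hT : denom T (z : ℂ) = 1 := by
    rw [ModularGroup.denom_apply]; simp [ModularGroup.T]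
  rw [h.apply_smul, hT, one_zpow, one_mul]

theorem odd_eq_zero (h : IsVF k F) (hneg : ∀ x : X, (-1 : SL(2, ℤ)) • x = x) (hk : Odd k) :
    F = 0 := by
  funext x z
  have h1 := h.apply_smul (-1) x z
  have hd : denom (-1 : SL(2, ℤ)) (z : ℂ) = -1 := by
    rw [ModularGroup.denom_apply]; simp
  have hz : (-1 : SL(2, ℤ)) • z = z := by rw [ModularGroup.SL_neg_smul, one_smul]
  rw [hd, hz, inv_eq_of_mul_eq_one_right (show (-1 : SL(2, ℤ)) * -1 = 1 by simp), hneg, hk.neg_one_zpow,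
    neg_one_mul] at h1
  simpa using self_eq_neg.mp h1

omit [MulAction SL(2, ℤ) X] in
theorem eq_zero_of_powerSum [Fintype X] (v : X → ℂ)
    (h : ∀ m : ℕ, ∑ x, v x ^ (m + 1) = 0) : v = 0 := by
  classical
  by_contra hv
  obtain ⟨x₀, hx₀⟩ := Function.ne_iff.mp hv
  have key : ∀ p : Polynomial ℂ, ∑ x, v x * p.eval (v x) = 0 := by
    intro p
    induction p using Polynomial.induction_on' with
    | add p q hp hq => simp [mul_add, Finset.sum_add_distrib, hp, hq]
    | monomial n a =>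
      simp only [Polynomial.eval_monomial]
      rw [show (∑ x, v x * (a * v x ^ n)) = a * ∑ x, v x ^ (n + 1) by
        rw [Finset.mul_sum]; exact Finset.sum_congr rfl fun x _ ↦ by ring, h, mul_zero]
  let s := (Finset.univ.image v).erase (v x₀)
  have hp := key (∏ a ∈ s, (Polynomial.X - Polynomial.C a))
  simp only [Polynomial.eval_prod, Polynomial.eval_sub, Polynomial.eval_X, Polynomial.eval_C] at hp
  have hcongr : ∑ x, v x * ∏ a ∈ s, (v x - a)
      = ∑ x ∈ Finset.univ.filter (fun x ↦ v x = v x₀), v x₀ * ∏ a ∈ s, (v x₀ - a) := by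
    rw [Finset.sum_filter]
    refine Finset.sum_congr rfl fun x _ ↦ ?_
    split_ifs with hx
    · rw [hx]
    · rw [Finset.prod_eq_zero (i := v x) (by simp [s, hx]) (sub_self _), mul_zero]
  rw [hcongr, Finset.sum_const, nsmul_eq_mul] at hp
  have hcard : ((Finset.univ.filter (fun x ↦ v x = v x₀)).card : ℂ) ≠ 0 := by
    exact_mod_cast (Finset.card_pos.mpr ⟨x₀, by simp⟩).ne'
  refine mul_ne_zero hcard (mul_ne_zero hx₀ ?_) hp
  exact Finset.prod_ne_zero_iff.mpr fun a ha ↦ sub_ne_zero.mpr fun hh ↦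
    (Finset.mem_erase.mp ha).1 hh.symm

theorem eq_zero_of_neg [Fintype X] (h : IsVF k F) (hk : k < 0) : F = 0 := by
  funext x z
  have : (fun y ↦ F y z) = 0 := eq_zero_of_powerSum _ fun m ↦ by
    have := congrFun ((h.pow (m + 1)).sum_isL1.eq_zero_of_neg
      (mul_neg_of_pos_of_neg (by positivity) hk)) z
    simpa [Finset.sum_apply] using this
  exact congrFun this x

/-- Weight zero forms are constant if `X` is one orbit. -/
theorem exists_const [Fintype X] [MulAction.IsPretransitive SL(2, ℤ) X] (h : IsVF 0 F) :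
    ∃ c : ℂ, ∀ x z, F x z = c := by
  classical
  rcases isEmpty_or_nonempty X with hX | ⟨⟨x₁⟩⟩
  · exact ⟨0, fun x ↦ (hX.false x).elim⟩
  let p : Polynomial ℂ :=
    ∏ a ∈ Finset.univ.image (fun y ↦ F y UpperHalfPlane.I), (Polynomial.X - Polynomial.C a)
  have hpI : ∀ x, p.eval (F x UpperHalfPlane.I) = 0 := fun x ↦ by
    simp only [p, Polynomial.eval_prod, Polynomial.eval_sub, Polynomial.eval_X, Polynomial.eval_C]
    exact Finset.prod_eq_zero (i := F x UpperHalfPlane.I) (by simp) (sub_self _)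
  have hG : ∀ q : Polynomial ℂ, IsVF 0 (fun x ↦ fun z ↦ q.eval (F x z) : X → ℍ → ℂ) := by
    intro q
    induction q using Polynomial.induction_on' with
    | add q r hq hr => convert! hq.add hr using 1; ext x z; simp
    | monomial n a =>
      convert! ((h.pow n).of_eq (mul_zero _)).smul a using 1
      ext x z; simp
  have hp0 : ∀ x z, p.eval (F x z) = 0 := by
    intro x z
    have : (fun y ↦ p.eval (F y z)) = 0 := eq_zero_of_powerSum _ fun m ↦ by
      obtain ⟨c, hc⟩ := (((hG p).pow (m + 1)).of_eq (mul_zero _)).sum_isL1.exists_const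
      have h1 := hc z
      have h2 := hc UpperHalfPlane.I
      simp only [Finset.sum_apply, Pi.pow_apply] at h1 h2
      rw [h1, ← h2]
      simp [hpI]
    exact congrFun this x
  have hfin : {a : ℂ | p.eval a = 0}.Finite :=
    Polynomial.finite_setOfPred_isRoot (Finset.prod_ne_zero_iff.mpr fun a _ ↦
      Polynomial.X_sub_C_ne_zero a)
  have hconn : IsPreconnected (Set.range (F x₁)) := by
    have : IsPreconnected (ext' (F x₁) '' {z : ℂ | 0 < z.im}) :=
      (Complex.isConnected_of_upperHalfPlane subset_rfl (by grind)).isPreconnected.image _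
        (UpperHalfPlane.mdifferentiable_iff.mp (h.mdiff x₁)).continuousOn
    convert! this using 1
    ext a
    constructor
    · rintro ⟨z, rfl⟩; exact ⟨z, z.im_pos, ext_apply _ _⟩
    · rintro ⟨w, hw, rfl⟩; exact ⟨⟨w, hw⟩, (ext_apply _ ⟨w, hw⟩).symm⟩
  have hsub : (Set.range (F x₁)).Subsingleton := by
    by_contra hns
    rw [Set.not_subsingleton_iff] at hns
    exact hconn.infinite_of_nontrivial hns
      (hfin.subset (by rintro _ ⟨z, rfl⟩; exact hp0 x₁ z))
  refine ⟨F x₁ UpperHalfPlane.I, fun x z ↦ ?_⟩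
  obtain ⟨γ, rfl⟩ := MulAction.exists_smul_eq SL(2, ℤ) x₁ x
  have h1 := h.apply_smul γ (γ • x₁) z
  rw [zpow_zero, one_mul, inv_smul_smul] at h1
  have h2 : F (γ • x₁) z = F x₁ (γ⁻¹ • z) := by
    have h3 := h.apply_smul γ (γ • x₁) (γ⁻¹ • z)
    rwa [zpow_zero, one_mul, inv_smul_smul, smul_inv_smul] at h3
  rw [h2]
  exact hsub ⟨_, rfl⟩ ⟨_, rfl⟩

end IsVF

theorem IsVC.zero' {k : ℤ} : IsVC k (0 : X → ℍ → ℂ) :=
  ⟨IsVF.zero, fun _ ↦ tendsto_const_nhds⟩

/-- A finite family of nonzero holomorphic functions has a common point of nonvanishing. -/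
theorem exists_forall_ne_zero {ι : Type*} (s : Finset ι) {f : ι → ℍ → ℂ}
    (hf : ∀ i ∈ s, MDiff (f i)) (h0 : ∀ i ∈ s, f i ≠ 0) : ∃ z : ℍ, ∀ i ∈ s, f i z ≠ 0 := by
  have : ∏ i ∈ s, f i ≠ 0 := fun h ↦ by
    obtain ⟨i, hi, hi'⟩ := (UpperHalfPlane.prod_eq_zero_iff hf).mp h
    exact h0 i hi hi'
  obtain ⟨z, hz⟩ := Function.ne_iff.mp this
  refine ⟨z, fun i hi ↦ ?_⟩
  simp only [Finset.prod_apply, Pi.zero_apply, Finset.prod_ne_zero_iff] at hz
  exact hz i hi

end Fermat.Agent.DimLower
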