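/-
Division of vector valued forms by a level one form with simple zeros.
-/
import Fermat.Agent.DimLower.VForm

set_option autoImplicit false

noncomputable section

namespace Fermat.Agent.DimLower

open UpperHalfPlane Filter Topology Complex Asymptotics
open scoped MatrixGroups ModularForm Manifold Real

/-- The quotient with removable singularities at simple zeros of the denominator. -/
def divFun (h φ : ℍ → ℂ) (z : ℍ) : ℂ :=
  if φ z = 0 then deriv (ext' h) z / deriv (ext' φ) z else h z / φ z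

theorem mul_divFun {h φ : ℍ → ℂ} {z : ℍ} (hz : φ z = 0 → h z = 0) : φ z * divFun h φ z = h z := by
  by_cases h0 : φ z = 0
  · simp [h0, hz h0]
  · simp [divFun, h0, mul_div_cancel₀]

theorem mdiff_divFun {h φ : ℍ → ℂ} (hh : MDiff h) (hφ : MDiff φ)
    (hzero : ∀ z, φ z = 0 → h z = 0) (hsimple : ∀ z : ℍ, φ z = 0 → deriv (ext' φ) z ≠ 0) :
    MDiff (divFun h φ) := by
  intro z
  rw [UpperHalfPlane.mdifferentiableAt_iff]
  by_cases hz : φ z = 0
  · have ha := (analyticAt_ext hh z)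
    have hb := (analyticAt_ext hφ z)
    obtain ⟨u, hu, hua⟩ : ∃ u, AnalyticAt ℂ u (z : ℂ) ∧ u = dslope (ext' h) z :=
      ⟨_, ha.hasFPowerSeriesAt.has_fpower_series_dslope_fslope.analyticAt, rfl⟩
    obtain ⟨v, hv, hva⟩ : ∃ v, AnalyticAt ℂ v (z : ℂ) ∧ v = dslope (ext' φ) z :=
      ⟨_, hb.hasFPowerSeriesAt.has_fpower_series_dslope_fslope.analyticAt, rfl⟩
    have hv0 : v z ≠ 0 := by rw [hva, dslope_same]; exact hsimple z hz
    refine ((hu.fun_div hv hv0).differentiableAt).congr_of_eventuallyEq ?_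
    have h1 : ∀ᶠ w : ℂ in 𝓝 (z : ℂ), v w ≠ 0 := hv.continuousAt.eventually_ne hv0
    filter_upwards [h1, isOpen_upperHalfPlaneSet.mem_nhds z.im_pos] with w hw hwim
    by_cases hwz : w = z
    · subst hwz
      simp [divFun, hz, hua, hva, dslope_same]
    · have e1 : ext' φ w = (w - z) * v w := by
        have := sub_smul_dslope (ext' φ) (z : ℂ) w
        rw [ext_apply φ z, hz, sub_zero, smul_eq_mul] at this
        rw [hva, this]
      have e2 : ext' h w = (w - z) * u w := by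
        have := sub_smul_dslope (ext' h) (z : ℂ) w
        rw [ext_apply h z, hzero z hz, sub_zero, smul_eq_mul] at this
        rw [hua, this]
      have hne : φ (ofComplex w) ≠ 0 := by
        show ext' φ w ≠ 0
        rw [e1]
        exact mul_ne_zero (sub_ne_zero.mpr hwz) hw
      simp only [Function.comp_apply, divFun, if_neg hne]
      rw [show h (ofComplex w) = (w - z) * u w from e2,
        show φ (ofComplex w) = (w - z) * v w from e1,
        mul_div_mul_left _ _ (sub_ne_zero.mpr hwz)]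
  · have ha := UpperHalfPlane.mdifferentiableAt_iff.mp (hh z)
    have hb := UpperHalfPlane.mdifferentiableAt_iff.mp (hφ z)
    have hne : (φ ∘ ofComplex) z ≠ 0 := by simpa using hz
    refine (ha.fun_div hb hne).congr_of_eventuallyEq ?_
    filter_upwards [hb.continuousAt.eventually_ne hne] with w hw
    simp only [Function.comp_apply] at hw ⊢
    simp [divFun, hw]

variable {X : Type*} [MulAction SL(2, ℤ) X]

/-- Division of a vector valued form by a level one form with simple zeros. -/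
theorem IsVF.exists_div {k w : ℤ} {F : X → ℍ → ℂ} (hF : IsVF k F) {φ : ℍ → ℂ} (hφ : IsL1 w φ)
    (hφ0 : φ ≠ 0) (hzero : ∀ z, φ z = 0 → ∀ x, F x z = 0)
    (hsimple : ∀ z : ℍ, φ z = 0 → deriv (ext' φ) z ≠ 0)
    (hbdd : ∀ x, IsBoundedAtImInfty (fun z ↦ F x z / φ z))
    (hev : ∀ᶠ z in atImInfty, φ z ≠ 0) :
    ∃ G : X → ℍ → ℂ, IsVF (k - w) G ∧ ∀ x z, φ z * G x z = F x z := by
  refine ⟨fun x ↦ divFun (F x) φ, ?_, fun x z ↦ mul_divFun fun h ↦ hzero z h x⟩
  have hm : ∀ x, MDiff (divFun (F x) φ) := fun x ↦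
    mdiff_divFun (hF.mdiff x) hφ.mdiff (fun z h ↦ hzero z h x) hsimple
  have hmul : ∀ x, φ * divFun (F x) φ = F x := fun x ↦
    funext fun z ↦ mul_divFun fun h ↦ hzero z h x
  refine ⟨hm, fun γ x ↦ ?_, fun x ↦ ?_⟩
  · have e : φ * (divFun (F x) φ ∣[k - w] γ) = φ * divFun (F (γ⁻¹ • x)) φ := by
      rw [hmul]
      have := ModularForm.mul_slash_SL2 w (k - w) γ φ (divFun (F x) φ)
      rw [hmul, add_sub_cancel, hφ.slash γ, hF.slash γ x] at this
      exact this.symm
    have e' : φ * (divFun (F x) φ ∣[k - w] γ - divFun (F (γ⁻¹ • x)) φ) = 0 := by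
      rw [mul_sub, e, sub_self]
    have hm' : MDiff (divFun (F x) φ ∣[k - w] γ) :=
      MDifferentiable.slash (hm x) (k - w) _
    rcases (UpperHalfPlane.mul_eq_zero_iff hφ.mdiff (hm'.sub (hm _))).mp e' with h | h
    · exact absurd h hφ0
    · exact sub_eq_zero.mp h
  · refine (hbdd x).congr' ?_ EventuallyEq.rfl
    filter_upwards [hev] with z hz
    simp [divFun, hz]

theorem bounded_div_of_tendsto {F φ : ℍ → ℂ} (hF : IsBoundedAtImInfty F)
    (hφ : Tendsto φ atImInfty (𝓝 1)) : IsBoundedAtImInfty (fun z ↦ F z / φ z) := by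
  have h1 : (fun z ↦ (φ z)⁻¹) =O[atImInfty] (1 : ℍ → ℝ) :=
    ((hφ.inv₀ one_ne_zero).isBigO_one ℝ)
  have h2 := IsBigO.mul hF h1
  simp only [Pi.one_apply, mul_one] at h2
  simpa only [IsBoundedAtImInfty, BoundedAtFilter, div_eq_mul_inv] using! h2

theorem deriv_e4_ne_zero {z : ℍ} (h : e4 z = 0) : deriv (ext' e4) z ≠ 0 := by
  have h6 : e6 z ≠ 0 := (e4_ne_zero_or z).resolve_left (by simp [h])
  intro h0
  have := deriv_e4 z
  rw [Derivative.normalizedDerivOfComplex, show deriv (e4 ∘ ofComplex) z = 0 from h0, h] at this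
  field_simp at this
  simp [h6, Real.pi_ne_zero] at this

theorem deriv_e6_ne_zero {z : ℍ} (h : e6 z = 0) : deriv (ext' e6) z ≠ 0 := by
  have h4 : e4 z ≠ 0 := (e4_ne_zero_or z).resolve_right (by simp [h])
  intro h0
  have := deriv_e6 z
  rw [Derivative.normalizedDerivOfComplex, show deriv (e6 ∘ ofComplex) z = 0 from h0, h] at this
  field_simp at this
  simp [h4, Real.pi_ne_zero] at this

/-- The weight twelve form vanishing exactly on the orbit of `z₀`. -/
def phi12 (z₀ : ℍ) : ℍ → ℂ := fun z ↦ e4 z ^ 3 - jInv z₀ * disc z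

theorem isL1_phi12 (z₀ : ℍ) : IsL1 12 (phi12 z₀) := by
  have h1 : IsL1 12 (e4 ^ 3) := (IsL1.e4.pow 3).of_eq (by norm_num)
  have h2 := IsL1.of_form (k := 12)
    (h1.toForm - jInv z₀ • (IsL1.disc.toForm : ModularForm 𝒮ℒ 12))
  convert! h2 using 1

theorem tendsto_phi12 (z₀ : ℍ) : Tendsto (phi12 z₀) atImInfty (𝓝 1) := by
  have := (tendsto_e4.pow 3).sub (tendsto_disc.const_mul (jInv z₀))
  simp only [one_pow, mul_zero, sub_zero] at this
  exact this

theorem phi12_eq (z₀ z : ℍ) : phi12 z₀ z = disc z * (jInv z - jInv z₀) := by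
  have := ModularForm.discriminant_ne_zero z
  simp only [phi12, jInv, disc] at *
  field_simp

theorem phi12_zero {z₀ z : ℍ} (h : phi12 z₀ z = 0) : ∃ γ : SL(2, ℤ), γ • z₀ = z := by
  rw [phi12_eq, mul_eq_zero, or_iff_right (ModularForm.discriminant_ne_zero z), sub_eq_zero] at h
  exact jInv_injective h.symm

theorem deriv_phi12_ne_zero {z₀ z : ℍ} (h4 : e4 z₀ ≠ 0) (h6 : e6 z₀ ≠ 0)
    (h : phi12 z₀ z = 0) : deriv (ext' (phi12 z₀)) z ≠ 0 := by
  obtain ⟨γ, rfl⟩ := phi12_zero h
  have hd := denom_ne_zero γ z₀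
  have h4' : e4 (γ • z₀) ≠ 0 := by rw [e4_smul]; exact mul_ne_zero (zpow_ne_zero _ hd) h4
  have h6' : e6 (γ • z₀) ≠ 0 := by rw [e6_smul]; exact mul_ne_zero (zpow_ne_zero _ hd) h6
  have hj := deriv_jInv_ne_zero h4' h6'
  have e : ext' (phi12 z₀) = fun w ↦ ext' disc w * (ext' jInv w - jInv z₀) :=
    funext fun w ↦ phi12_eq z₀ _
  rw [e, deriv_fun_mul (analyticAt_ext mdiff_disc _).differentiableAt
    ((analyticAt_ext mdiff_jInv _).differentiableAt.sub_const _), deriv_sub_const, ext_apply,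
    ext_apply, jInv_smul, sub_self, mul_zero, zero_add]
  exact mul_ne_zero (ModularForm.discriminant_ne_zero _) hj

theorem e4_zero_orbit {z : ℍ} (h : e4 z = 0) :
    ∃ γ : SL(2, ℤ), γ • UpperHalfPlane.ρ = z :=
  jInv_injective (by simp [jInv, h, e4_rho])

theorem e6_zero_orbit {z : ℍ} (h : e6 z = 0) :
    ∃ γ : SL(2, ℤ), γ • UpperHalfPlane.I = z := by
  refine jInv_injective ?_
  have h4 : e4 z ≠ 0 := (e4_ne_zero_or z).resolve_right (by simp [h])
  have h4' : e4 UpperHalfPlane.I ≠ 0 := (e4_ne_zero_or _).resolve_right (by simp [e6_I])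
  simp only [jInv, disc_eq, h, e6_I]
  field_simp
  simp

end Fermat.Agent.DimLower
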