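/-
The behaviour at infinity of matrices of vector valued forms: eigenspaces of the permutation
induced by `T`.
-/
import Fermat.Agent.DimLower.VForm
import Mathlib.LinearAlgebra.Projection
import Mathlib.LinearAlgebra.Trace
import Mathlib.LinearAlgebra.Determinant
import Mathlib.RingTheory.RootsOfUnity.Complex

set_option autoImplicit false
set_option linter.unusedSectionVars false

noncomputable section

namespace Fermat.Agent.DimLower

open UpperHalfPlane Filter Topology Complex Asymptotics Matrix
open scoped MatrixGroups ModularForm Manifold Real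
open ModularGroup (S T)

variable (X : Type*) [Fintype X] [DecidableEq X] [MulAction SL(2, ℤ) X]

/-- A common period of all cusps: the order of the permutation induced by `T`. -/
def per : ℕ := orderOf (MulAction.toPermHom SL(2, ℤ) X T)

theorem per_pos : 0 < per X := orderOf_pos _

theorem T_pow_per_smul (x : X) : T ^ per X • x = x := by
  have h := congrArg (fun p : Equiv.Perm X ↦ p x)
    (pow_orderOf_eq_one (MulAction.toPermHom SL(2, ℤ) X T))
  rw [← map_pow] at h
  exact h

/-- The permutation matrix of `γ`. -/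
def permMat (γ : SL(2, ℤ)) : Matrix X X ℂ := Matrix.of fun x y ↦ if γ⁻¹ • x = y then 1 else 0

theorem permMat_mul_apply (γ : SL(2, ℤ)) (A : Matrix X X ℂ) (x y : X) :
    (permMat X γ * A) x y = A (γ⁻¹ • x) y := by
  simp [Matrix.mul_apply, permMat]

theorem permMat_mul (a b : SL(2, ℤ)) : permMat X a * permMat X b = permMat X (a * b) := by
  ext x y
  rw [permMat_mul_apply]
  simp [permMat, _root_.mul_inv_rev, mul_smul]

theorem permMat_one : permMat X 1 = 1 := by
  ext x y
  simp [permMat, Matrix.one_apply]

theorem permMat_T_pow_per : permMat X (T ^ per X) = 1 := by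
  ext x y
  simp [permMat, Matrix.one_apply, inv_smul_eq_iff.mpr (T_pow_per_smul X x).symm]

theorem trace_permMat (γ : SL(2, ℤ)) :
    (permMat X γ).trace = (Nat.card {x : X // γ • x = x} : ℂ) := by
  rw [Nat.card_eq_fintype_card, Fintype.card_subtype, Matrix.trace]
  simp only [Matrix.diag, permMat, Matrix.of_apply, Finset.sum_boole, inv_smul_eq_iff]
  congr 2
  exact Finset.filter_congr fun x _ ↦ eq_comm

/-- A primitive root of unity of order the period. -/
def zeta : ℂ := Complex.exp (2 * π * Complex.I / (per X : ℕ))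

theorem isPrimitiveRoot_zeta : IsPrimitiveRoot (zeta X) (per X) :=
  Complex.isPrimitiveRoot_exp _ (per_pos X).ne'

theorem zeta_ne_zero : zeta X ≠ 0 := Complex.exp_ne_zero _

theorem conj_zeta : (starRingEnd ℂ) (zeta X) = (zeta X)⁻¹ := by
  rw [zeta, ← Complex.exp_conj, ← Complex.exp_neg]
  congr 1
  simp only [map_div₀, map_mul, map_ofNat, Complex.conj_ofReal, Complex.conj_I, map_natCast]
  ring

/-- The projection on the `ζ ^ r`-eigenspace of `T`. -/
def projMat (r : ℕ) : Matrix X X ℂ :=
  (per X : ℂ)⁻¹ • ∑ a ∈ Finset.range (per X), ((zeta X ^ r)⁻¹) ^ a • permMat X (T ^ a)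

theorem projMat_mul_T (r : ℕ) : projMat X r * permMat X T = zeta X ^ r • projMat X r := by
  have hz : zeta X ^ r ≠ 0 := pow_ne_zero _ (zeta_ne_zero X)
  let g : ℕ → Matrix X X ℂ := fun a ↦ ((zeta X ^ r)⁻¹) ^ a • permMat X (T ^ a)
  have hper : g (per X) = g 0 := by
    simp only [g, permMat_T_pow_per, pow_zero, permMat_one]
    rw [inv_pow, ← pow_mul, mul_comm r, pow_mul, (isPrimitiveRoot_zeta X).pow_eq_one, one_pow,
      inv_one]
  have hshift : ∑ a ∈ Finset.range (per X), g (a + 1) = ∑ a ∈ Finset.range (per X), g a := by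
    have := (Finset.sum_range_succ' g (per X)).symm.trans (Finset.sum_range_succ g (per X))
    rw [hper] at this
    exact add_right_cancel this
  rw [projMat, Matrix.smul_mul, Matrix.sum_mul, smul_comm (zeta X ^ r)]
  congr 1
  rw [← hshift, Finset.smul_sum]
  refine Finset.sum_congr rfl fun a _ ↦ ?_
  simp only [g, Matrix.smul_mul, permMat_mul, ← pow_succ, smul_smul]
  congr 1
  rw [pow_succ', ← mul_assoc, mul_inv_cancel₀ hz, one_mul]

theorem projMat_mul_T_pow (r a : ℕ) :
    projMat X r * permMat X (T ^ a) = (zeta X ^ r) ^ a • projMat X r := by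
  induction a with
  | zero => simp [permMat_one]
  | succ a ih =>
    rw [pow_succ T, ← permMat_mul, ← mul_assoc, ih, Matrix.smul_mul, projMat_mul_T, smul_smul,
      ← pow_succ]

theorem projMat_mul_projMat {r s : ℕ} (hr : r < per X) (hs : s < per X) :
    projMat X r * projMat X s = if r = s then projMat X r else 0 := by
  conv_lhs => rw [projMat.eq_def X s]
  rw [Matrix.mul_smul, Matrix.mul_sum]
  simp only [Matrix.mul_smul, projMat_mul_T_pow, smul_smul, ← mul_pow]
  rw [← Finset.sum_smul, smul_smul]
  split_ifs with h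
  · subst h
    simp [zeta_ne_zero, (per_pos X).ne']
  · have hne : (zeta X ^ s)⁻¹ * zeta X ^ r ≠ 1 := by
      rw [ne_eq, inv_mul_eq_one₀ (pow_ne_zero _ (zeta_ne_zero X))]
      exact fun e ↦ h ((isPrimitiveRoot_zeta X).pow_inj hr hs e.symm)
    rw [geom_sum_eq hne, mul_pow, inv_pow, ← pow_mul, ← pow_mul, mul_comm s, mul_comm r, pow_mul,
      pow_mul, (isPrimitiveRoot_zeta X).pow_eq_one]
    simp

theorem sum_projMat : ∑ r ∈ Finset.range (per X), projMat X r = 1 := by
  simp only [projMat, ← Finset.smul_sum]
  rw [Finset.sum_comm]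
  simp only [← Finset.sum_smul]
  rw [Finset.sum_eq_single_of_mem 0 (Finset.mem_range.mpr (per_pos X))]
  · simp [permMat_one, smul_smul, (per_pos X).ne']
  · intro a ha ha0
    have hne : (zeta X ^ a)⁻¹ ≠ 1 := by
      rw [ne_eq, inv_eq_one]
      exact (isPrimitiveRoot_zeta X).pow_ne_one_of_pos_of_lt ha0 (Finset.mem_range.mp ha)
    have : ∑ r ∈ Finset.range (per X), ((zeta X ^ r)⁻¹) ^ a = 0 := by
      have h1 : ∀ r : ℕ, ((zeta X ^ r)⁻¹) ^ a = ((zeta X ^ a)⁻¹) ^ r := fun r ↦ by
        rw [inv_pow, inv_pow, ← pow_mul, ← pow_mul, mul_comm]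
      simp only [h1]
      rw [geom_sum_eq hne, inv_pow, ← pow_mul, mul_comm, pow_mul,
        (isPrimitiveRoot_zeta X).pow_eq_one]
      simp
    rw [this, zero_smul]

/-- The operator with eigenvalue `c r` on the `ζ ^ r`-eigenspace. -/
def eigMat (c : ℕ → ℂ) : Matrix X X ℂ := ∑ r ∈ Finset.range (per X), c r • projMat X r

theorem eigMat_mul (c d : ℕ → ℂ) : eigMat X c * eigMat X d = eigMat X (c * d) := by
  simp only [eigMat, Matrix.sum_mul, Matrix.mul_sum, Matrix.smul_mul, Matrix.mul_smul,
    Pi.mul_apply]
  refine Finset.sum_congr rfl fun r hr ↦ ?_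
  rw [Finset.sum_eq_single_of_mem r hr]
  · rw [projMat_mul_projMat X (Finset.mem_range.mp hr) (Finset.mem_range.mp hr), if_pos rfl,
      smul_smul, mul_comm]
  · intro s hs hsr
    first
      | rw [projMat_mul_projMat X (Finset.mem_range.mp hr) (Finset.mem_range.mp hs),
          if_neg hsr.symm]
      | rw [projMat_mul_projMat X (Finset.mem_range.mp hs) (Finset.mem_range.mp hr), if_neg hsr]
    simp

theorem eigMat_one : eigMat X 1 = 1 := by simp [eigMat, sum_projMat]

theorem eigMat_congr {c d : ℕ → ℂ} (h : ∀ r < per X, c r = d r) : eigMat X c = eigMat X d :=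
  Finset.sum_congr rfl fun r hr ↦ by rw [h r (Finset.mem_range.mp hr)]

theorem eigMat_mul_permMat_T (c : ℕ → ℂ) :
    eigMat X c * permMat X T = eigMat X (fun r ↦ c r * zeta X ^ r) := by
  simp only [eigMat, Matrix.sum_mul, Matrix.smul_mul, projMat_mul_T, smul_smul]

/-- The multiplicity of the eigenvalue `ζ ^ r`. -/
def mult (r : ℕ) : ℕ := Module.finrank ℂ (LinearMap.range (Matrix.toLin' (projMat X r)))

theorem isProj_projMat {r : ℕ} (hr : r < per X) :
    LinearMap.IsProj (LinearMap.range (Matrix.toLin' (projMat X r)))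
      (Matrix.toLin' (projMat X r)) := by
  rw [LinearMap.isProj_range_iff_isIdempotentElem]
  rw [IsIdempotentElem, Module.End.mul_eq_comp, ← Matrix.toLin'_mul,
    projMat_mul_projMat X hr hr, if_pos rfl]

theorem trace_projMat {r : ℕ} (hr : r < per X) : (projMat X r).trace = mult X r := by
  rw [← Matrix.trace_toLin'_eq, (isProj_projMat X hr).trace, mult]

theorem det_one_add_smul_projMat {r : ℕ} (hr : r < per X) (c : ℂ) :
    (1 + (c - 1) • projMat X r).det = c ^ mult X r := by
  have h := isProj_projMat X hr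
  set f := Matrix.toLin' (projMat X r) with hf
  set p := LinearMap.range f with hp
  have hsum : Matrix.toLin' (1 + (c - 1) • projMat X r) = LinearMap.id + (c - 1) • f := by
    rw [map_add, Matrix.toLin'_one, map_smul]
  have e := Submodule.prodEquivOfIsCompl p (LinearMap.ker f) h.isCompl
  rw [← LinearMap.det_toLin', hsum]
  have key : LinearMap.id + (c - 1) • f = (Submodule.prodEquivOfIsCompl p (LinearMap.ker f)
      h.isCompl).conj ((c • LinearMap.id).prodMap LinearMap.id) := by
    apply LinearMap.ext
    intro v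
    obtain ⟨⟨a, b⟩, rfl⟩ :=
      (Submodule.prodEquivOfIsCompl p (LinearMap.ker f) h.isCompl).surjective v
    have ha : f a = a := h.map_id a a.2
    have hb : f b = 0 := b.2
    simp [LinearEquiv.conj_apply, ha, hb, sub_smul]
    abel
  rw [key, LinearEquiv.conj_apply, LinearMap.comp_assoc]
  erw [LinearMap.det_conj]
  rw [LinearMap.det_prodMap, LinearMap.det_smul, LinearMap.det_id, LinearMap.det_id, mul_one,
    mul_one, mult]

theorem det_eigMat (c : ℕ → ℂ) :
    (eigMat X c).det = ∏ r ∈ Finset.range (per X), c r ^ mult X r := by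
  classical
  suffices ∀ s ⊆ Finset.range (per X),
      (eigMat X (fun r ↦ if r ∈ s then c r else 1)).det = ∏ r ∈ s, c r ^ mult X r by
    rw [← this _ le_rfl]
    exact congrArg Matrix.det (eigMat_congr X fun r hr ↦ (if_pos (Finset.mem_range.mpr hr)).symm)
  intro s
  induction s using Finset.induction_on with
  | empty =>
    intro _
    simp [eigMat, sum_projMat]
  | insert a s ha ih =>
    intro hs
    rw [Finset.insert_subset_iff] at hs
    rw [Finset.prod_insert ha, ← ih hs.2, ← det_one_add_smul_projMat X (Finset.mem_range.mp hs.1),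
      ← Matrix.det_mul]
    congr 1
    have h1 : (1 : Matrix X X ℂ) + (c a - 1) • projMat X a
        = eigMat X (fun r ↦ if r = a then c a else 1) := by
      have : eigMat X (fun r ↦ if r = a then c a else 1)
          = ∑ r ∈ Finset.range (per X),
              (projMat X r + (if r = a then (c a - 1) • projMat X r else 0)) := by
        refine Finset.sum_congr rfl fun r _ ↦ ?_
        dsimp only
        split_ifs with h
        · subst h; simp [sub_smul]
        · simp
      rw [this, Finset.sum_add_distrib, sum_projMat, Finset.sum_ite_eq' _ a _, if_pos hs.1]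
    rw [h1, eigMat_mul]
    refine eigMat_congr X fun r _ ↦ ?_
    by_cases h : r = a
    · subst h; simp [ha]
    · simp [h]

theorem sum_mult : ∑ r ∈ Finset.range (per X), mult X r = Fintype.card X := by
  have h := congrArg Matrix.trace (sum_projMat X)
  rw [Matrix.trace_sum, Matrix.trace_one, Finset.sum_congr rfl fun r hr ↦
    trace_projMat X (Finset.mem_range.mp hr)] at h
  exact_mod_cast h

theorem mult_sub {r : ℕ} (hr : 0 < r) (hr' : r < per X) : mult X (per X - r) = mult X r := by
  have hM : per X - r < per X := by omega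
  have h1 := trace_projMat X hr'
  have h2 := trace_projMat X hM
  have hz : zeta X ^ (per X - r) = (zeta X ^ r)⁻¹ := by
    refine eq_inv_of_mul_eq_one_left ?_
    rw [← pow_add,
      show per X - r + r = per X by omega, (isPrimitiveRoot_zeta X).pow_eq_one]
  have h3 : (starRingEnd ℂ) (projMat X r).trace = (projMat X (per X - r)).trace := by
    simp only [projMat, Matrix.trace_smul, Matrix.trace_sum, smul_eq_mul, map_mul, map_sum,
      trace_permMat, map_inv₀, map_pow, map_natCast, conj_zeta, hz, inv_pow]
  rw [h1, h2, map_natCast] at h3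
  exact_mod_cast h3.symm

/-- The weighted multiplicity. -/
def totalExp : ℕ := ∑ r ∈ Finset.range (per X), r * mult X r

theorem mult_zero :
    mult X 0 = Nat.card (MulAction.orbitRel.Quotient (Subgroup.zpowers T) X) := by
  classical
  let Q := MulAction.orbitRel.Quotient (Subgroup.zpowers T) X
  let φ : (Q → ℂ) →ₗ[ℂ] (X → ℂ) := LinearMap.funLeft ℂ ℂ (fun x ↦ (Quotient.mk'' x : Q))
  have hinj : Function.Injective φ :=
    LinearMap.funLeft_injective_of_surjective _ _ _ Quotient.mk''_surjective
  have hrange : LinearMap.range φ = LinearMap.range (Matrix.toLin' (projMat X 0)) := by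
    apply le_antisymm
    · rintro _ ⟨u, rfl⟩
      refine ⟨φ u, ?_⟩
      have hP : ∀ a : ℕ, permMat X (T ^ a) *ᵥ φ u = φ u := by
        intro a
        funext x
        have : (Quotient.mk'' ((T ^ a)⁻¹ • x) : Q) = Quotient.mk'' x := by
          rw [Quotient.eq'']
          exact ⟨⟨(T ^ a)⁻¹, (Subgroup.zpowers T).inv_mem
            ((Subgroup.zpowers T).pow_mem (Subgroup.mem_zpowers T) a)⟩, rfl⟩
        simp [Matrix.mulVec, dotProduct, permMat, φ, LinearMap.funLeft_apply, this]
      rw [Matrix.toLin'_apply, projMat, Matrix.smul_mulVec, Matrix.sum_mulVec]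
      simp only [pow_zero, inv_one, one_pow, one_smul, hP, Finset.sum_const, Finset.card_range,
        ← Nat.cast_smul_eq_nsmul ℂ, smul_smul]
      rw [inv_mul_cancel₀ (by exact_mod_cast (per_pos X).ne'), one_smul]
    · rintro _ ⟨u, rfl⟩
      set v := Matrix.toLin' (projMat X 0) u with hv
      have hT : ∀ x, v (T⁻¹ • x) = v x := by
        intro x
        have hcomm : permMat X T * projMat X 0 = projMat X 0 := by
          have h1 : permMat X T * projMat X 0 = projMat X 0 * permMat X T := by
            simp only [projMat, Matrix.mul_smul, Matrix.smul_mul, Matrix.mul_sum, Matrix.sum_mul,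
              permMat_mul, ← pow_succ, ← pow_succ']
          rw [h1, projMat_mul_T]; simp
        have := congrArg (fun A : Matrix X X ℂ ↦ (A *ᵥ u) x) hcomm
        rw [← Matrix.mulVec_mulVec] at this
        simpa [Matrix.mulVec, dotProduct, permMat, hv] using this
      have hT' : ∀ g ∈ Subgroup.zpowers T, ∀ x, v (g • x) = v x := by
        intro g hg
        rw [Subgroup.zpowers_eq_closure] at hg
        induction hg using Subgroup.closure_induction with
        | mem g hg =>
          rw [Set.mem_singleton_iff] at hg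
          subst hg
          intro x
          simpa using (hT (T • x)).symm
        | one => simp
        | mul a b _ _ ha hb => intro x; rw [mul_smul, ha, hb]
        | inv a _ ha => intro x; simpa using (ha (a⁻¹ • x)).symm
      refine ⟨Quotient.lift v (fun a b hab ↦ ?_), rfl⟩
      obtain ⟨g, rfl⟩ := hab
      exact hT' g g.2 b
  rw [mult, ← hrange, LinearMap.finrank_range_of_inj hinj, Module.finrank_pi,
    Nat.card_eq_fintype_card]

theorem two_mul_totalExp :
    2 * totalExp X + per X * Nat.card (MulAction.orbitRel.Quotient (Subgroup.zpowers T) X)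
      = per X * Fintype.card X := by
  obtain ⟨n, hn⟩ : ∃ n, per X = n + 1 := ⟨per X - 1, by have := per_pos X; omega⟩
  have hsum : ∑ i ∈ Finset.range n, mult X (i + 1) + mult X 0 = Fintype.card X := by
    rw [← Finset.sum_range_succ' (fun r ↦ mult X r), ← hn, sum_mult]
  have h1 : totalExp X = ∑ i ∈ Finset.range n, (i + 1) * mult X (i + 1) := by
    rw [totalExp, hn, Finset.sum_range_succ']; simp
  have h2 : totalExp X = ∑ i ∈ Finset.range n, (n - i) * mult X (i + 1) := by
    rw [h1, ← Finset.sum_range_reflect]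
    refine Finset.sum_congr rfl fun i hi ↦ ?_
    have hi := Finset.mem_range.mp hi
    rw [show n - 1 - i + 1 = n - i by omega]
    congr 1
    have := mult_sub X (r := i + 1) (by omega) (by omega)
    rwa [show per X - (i + 1) = n - i by omega] at this
  rw [← mult_zero, ← hsum, mul_add, two_mul]
  conv_lhs => arg 1; arg 1; rw [h1]
  rw [h2, ← Finset.sum_add_distrib, Finset.mul_sum]
  refine congrArg (· + _) (Finset.sum_congr rfl fun i hi ↦ ?_)
  have hi := Finset.mem_range.mp hi
  rw [← add_mul, show i + 1 + (n - i) = per X by omega]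

/-- The local parameter `exp (2 π i z / per)`. -/
def tPar (z : ℍ) : ℂ := Function.Periodic.qParam (per X : ℕ) (z : ℂ)

theorem tPar_ne_zero (z : ℍ) : tPar X z ≠ 0 := Complex.exp_ne_zero _

theorem tPar_T (z : ℍ) : tPar X (T • z) = zeta X * tPar X z := by
  have hM : ((per X : ℕ) : ℂ) ≠ 0 := by exact_mod_cast (per_pos X).ne'
  have hc : ((T • z : ℍ) : ℂ) = z + 1 := by
    simpa using ModularGroup.coe_T_zpow_smul_eq (z := z) (n := 1)
  simp only [tPar, zeta, Function.Periodic.qParam, hc, ← Complex.exp_add, Complex.ofReal_natCast]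
  congr 1
  field_simp
  ring

theorem tPar_pow_per (z : ℍ) : tPar X z ^ per X = Function.Periodic.qParam 1 (z : ℂ) := by
  have hM : ((per X : ℕ) : ℂ) ≠ 0 := by exact_mod_cast (per_pos X).ne'
  simp only [tPar, Function.Periodic.qParam, ← Complex.exp_nat_mul, Complex.ofReal_natCast,
    Complex.ofReal_one]
  congr 1
  field_simp

theorem mdiff_tPar_pow (r : ℕ) : MDiff (fun z ↦ (tPar X z ^ r)⁻¹) := by
  rw [UpperHalfPlane.mdifferentiable_iff]
  have h : DifferentiableOn ℂ (fun w ↦ (Function.Periodic.qParam (per X : ℕ) w ^ r)⁻¹)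
      {z : ℂ | 0 < z.im} := by
    refine DifferentiableOn.fun_inv ?_ fun w _ ↦ pow_ne_zero _ (Complex.exp_ne_zero _)
    exact ((Function.Periodic.differentiable_qParam.pow r)).differentiableOn
  refine h.congr fun w hw ↦ ?_
  simp [tPar, ofComplex_apply_of_im_pos hw]

omit [MulAction SL(2, ℤ) X] in
theorem periodic_of_T {h : ℍ → ℂ} {n : ℕ} (hn : ∀ z, h (T ^ n • z) = h z) :
    Function.Periodic (ext' h) (n : ℝ) := by
  intro w
  by_cases hw : 0 < w.im
  · have hw' : 0 < (w + (n : ℝ)).im := by simpa using hw
    simp only [ext', Function.comp_apply, ofComplex_apply_of_im_pos hw',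
      ofComplex_apply_of_im_pos hw]
    rw [← hn ⟨w, hw⟩]
    congr 1
    apply UpperHalfPlane.ext
    have := ModularGroup.coe_T_zpow_smul_eq (z := ⟨w, hw⟩) (n := n)
    rw [zpow_natCast] at this
    rw [this]
    simp
  · have hw' : (w + (n : ℝ)).im ≤ 0 := by simpa using not_lt.mp hw
    simp only [ext', Function.comp_apply, ofComplex_apply_of_im_nonpos hw',
      ofComplex_apply_of_im_nonpos (not_lt.mp hw)]

theorem bdd_div_tPar_pow : ∀ r < per X, ∀ h : ℍ → ℂ, MDiff h → IsBoundedAtImInfty h →
    (∀ z, h (T • z) = zeta X ^ r * h z) → IsBoundedAtImInfty (fun z ↦ (tPar X z ^ r)⁻¹ * h z) := by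
  intro r
  induction r with
  | zero => intro _ h _ hb _; simpa using hb
  | succ r ih =>
    intro hr h hm hb htw
    have hz : ∀ n : ℕ, ∀ z, h (T ^ n • z) = (zeta X ^ (r + 1)) ^ n * h z := by
      intro n
      induction n with
      | zero => simp
      | succ n ihn => intro z; rw [pow_succ' T, mul_smul, htw, ihn, ← mul_assoc, ← pow_succ']
    have hper : Function.Periodic (ext' h) (per X : ℝ) := periodic_of_T fun z ↦ by
      rw [hz, ← pow_mul, mul_comm (r + 1), pow_mul, (isPrimitiveRoot_zeta X).pow_eq_one, one_pow,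
        one_mul]
    have hM : (0 : ℝ) < per X := by exact_mod_cast per_pos X
    have hd := exp_decay_sub_atImInfty hM hper hm hb
    have hexp : ∀ z : ℍ, Real.exp (-2 * π * z.im / (per X : ℝ)) = ‖tPar X z‖ := by
      intro z
      rw [tPar, Function.Periodic.norm_qParam, UpperHalfPlane.coe_im]
    have hlim : Tendsto h atImInfty (𝓝 (valueAtInfty h)) := by
      have h0 : Tendsto (fun τ : ℍ ↦ Real.exp (-2 * π * τ.im / (per X : ℝ))) atImInfty (𝓝 0) := by
        refine ((qParam_tendsto_atImInfty hM).norm.congr fun z ↦ ?_).trans (by simp)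
        exact (hexp z).symm
      simpa using (hd.trans_tendsto h0).add_const (valueAtInfty h)
    have hne : zeta X ^ (r + 1) ≠ 1 :=
      (isPrimitiveRoot_zeta X).pow_ne_one_of_pos_of_lt (Nat.succ_ne_zero r) hr
    have hv : valueAtInfty h = 0 := by
      have ht : Tendsto (fun z : ℍ ↦ T • z) atImInfty atImInfty := by
        simp only [atImInfty, tendsto_comap_iff, Function.comp_def, ModularGroup.im_T_smul]
        exact tendsto_comap
      have h1 : Tendsto (fun z ↦ zeta X ^ (r + 1) * h z) atImInfty (𝓝 (valueAtInfty h)) :=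
        (hlim.comp ht).congr fun z ↦ htw z
      have h2 := tendsto_nhds_unique h1 (hlim.const_mul _)
      by_contra h0
      exact hne (mul_eq_right₀ h0 |>.mp h2.symm)
    have hb1 : IsBoundedAtImInfty (fun z ↦ (tPar X z ^ 1)⁻¹ * h z) := by
      rw [hv] at hd
      simp only [sub_zero] at hd
      obtain ⟨C, hC⟩ := hd.bound
      refine Asymptotics.IsBigO.of_bound C (hC.mono fun z hz ↦ ?_)
      rw [Real.norm_of_nonneg (Real.exp_pos _).le, hexp] at hz
      simp only [pow_one, norm_mul, norm_inv, Pi.one_apply, norm_one, mul_one]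
      rw [inv_mul_le_iff₀ (norm_pos_iff.mpr (tPar_ne_zero X z))]
      linarith
    have := ih (by omega) (fun z ↦ (tPar X z ^ 1)⁻¹ * h z) ((mdiff_tPar_pow X 1).mul hm) hb1
      (fun z ↦ by
        rw [htw, tPar_T, pow_one, pow_one, mul_inv, pow_succ]
        field_simp [zeta_ne_zero])
    refine this.congr' (Eventually.of_forall fun z ↦ ?_) EventuallyEq.rfl
    simp only
    rw [← mul_assoc, ← mul_inv, ← pow_add]

end Fermat.Agent.DimLower
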