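/-
Families of vector valued forms with invertible matrix; a family of least total weight has
matrix invertible everywhere, including at infinity.
-/
import Fermat.Agent.DimLower.Divide
import Fermat.Agent.DimLower.Frame
import Mathlib.LinearAlgebra.Matrix.ToLinearEquiv

set_option autoImplicit false
set_option linter.unusedSectionVars false

noncomputable section

namespace Fermat.Agent.DimLower

open UpperHalfPlane Filter Topology Complex Asymptotics Matrix
open scoped MatrixGroups ModularForm Manifold Real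
open ModularGroup (S T)

variable (X : Type*) [Fintype X] [DecidableEq X] [MulAction SL(2, ℤ) X]

/-- A family of vector valued forms indexed by `X` whose matrix is somewhere invertible. -/
structure Family where
  wt : X → ℤ
  frm : X → X → ℍ → ℂ
  isVF : ∀ i, IsVF (wt i) (frm i)
  exists_det_ne_zero : ∃ z : ℍ, (Matrix.of fun x i ↦ frm i x z : Matrix X X ℂ).det ≠ 0

variable {X}

namespace Family

variable (E : Family X)

/-- The matrix of the family. -/
def mat (z : ℍ) : Matrix X X ℂ := Matrix.of fun x i ↦ E.frm i x z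

theorem mat_apply (z : ℍ) (x i : X) : E.mat z x i = E.frm i x z := rfl

/-- The determinant of the family. -/
def detF : ℍ → ℂ := fun z ↦ (E.mat z).det

theorem detF_ne_zero : E.detF ≠ 0 := fun h ↦ by
  obtain ⟨z, hz⟩ := E.exists_det_ne_zero
  exact hz (congrFun h z)

theorem mdiff_detF : MDiff E.detF := by
  have : E.detF = ∑ σ : Equiv.Perm X, ((Equiv.Perm.sign σ : ℤ) : ℂ) • ∏ i, E.frm i (σ i) := by
    funext z
    simp only [detF, Matrix.det_apply', mat_apply, Finset.sum_apply, Pi.smul_apply,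
      Finset.prod_apply, smul_eq_mul]
  rw [this]
  refine Finset.sum_induction _ (fun f : ℍ → ℂ ↦ MDiff f) (fun _ _ ↦ MDifferentiable.add)
    mdifferentiable_const fun σ _ ↦ ?_
  refine MDifferentiable.const_smul _ ?_
  exact Finset.prod_induction _ (fun f : ℍ → ℂ ↦ MDiff f) (fun _ _ ↦ MDifferentiable.mul)
    mdifferentiable_const fun i _ ↦ (E.isVF i).mdiff _

theorem mat_smul (γ : SL(2, ℤ)) (z : ℍ) :
    E.mat (γ • z) = permMat X γ * E.mat z *
      Matrix.diagonal (fun i ↦ (denom γ z) ^ E.wt i) := by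
  ext x i
  rw [Matrix.mul_diagonal, permMat_mul_apply, mat_apply, mat_apply, (E.isVF i).apply_smul, mul_comm]

theorem mat_T (z : ℍ) : E.mat (T • z) = permMat X T * E.mat z := by
  ext x i
  rw [permMat_mul_apply, mat_apply, mat_apply, (E.isVF i).apply_T]

theorem det_permMat (γ : SL(2, ℤ)) :
    (permMat X γ).det = ((Equiv.Perm.sign (MulAction.toPerm γ⁻¹ : Equiv.Perm X) : ℤ) : ℂ) := by
  have h : permMat X γ = (1 : Matrix X X ℂ).submatrix (MulAction.toPerm γ⁻¹ : Equiv.Perm X) id := by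
    ext x y
    simp [permMat, Matrix.one_apply]
  rw [h, Matrix.det_permute, Matrix.det_one, mul_one]

theorem detF_smul (γ : SL(2, ℤ)) (z : ℍ) :
    E.detF (γ • z) = ((Equiv.Perm.sign (MulAction.toPerm γ⁻¹ : Equiv.Perm X) : ℤ) : ℂ) *
      E.detF z * (denom γ z) ^ (∑ i, E.wt i) := by
  simp only [detF, mat_smul, Matrix.det_mul, det_permMat, Matrix.det_diagonal]
  congr 1
  have hu := denom_ne_zero γ z
  refine Finset.induction_on (Finset.univ : Finset X) (by simp) fun i s hi ih ↦ ?_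
  rw [Finset.prod_insert hi, Finset.sum_insert hi, ih, zpow_add₀ hu]

theorem wt_nonneg (i : X) : 0 ≤ E.wt i := by
  by_contra h
  obtain ⟨z, hz⟩ := E.exists_det_ne_zero
  exact hz (Matrix.det_eq_zero_of_column_eq_zero i fun x ↦ by
    simp [(E.isVF i).eq_zero_of_neg (not_le.mp h)])

theorem wt_even (hneg : ∀ x : X, (-1 : SL(2, ℤ)) • x = x) (i : X) : Even (E.wt i) := by
  by_contra h
  obtain ⟨z, hz⟩ := E.exists_det_ne_zero
  exact hz (Matrix.det_eq_zero_of_column_eq_zero i fun x ↦ by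
    simp [(E.isVF i).odd_eq_zero hneg (Int.not_even_iff_odd.mp h)])

/-- The family has least total weight. -/
def IsMinimal : Prop := ∀ E' : Family X, ∑ i, E.wt i ≤ ∑ i, E'.wt i

theorem exists_isMinimal (h : Nonempty (Family X)) : ∃ E : Family X, E.IsMinimal := by
  have hex : ∃ n : ℕ, ∃ E : Family X, ∑ i, E.wt i = n := by
    obtain ⟨E⟩ := h
    exact ⟨(∑ i, E.wt i).toNat, E,
      (Int.toNat_of_nonneg (Finset.sum_nonneg fun i _ ↦ E.wt_nonneg i)).symm⟩
  classical
  obtain ⟨E, hE⟩ := Nat.find_spec hex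
  refine ⟨E, fun E' ↦ ?_⟩
  have h0 : (0 : ℤ) ≤ ∑ i, E'.wt i := Finset.sum_nonneg fun i _ ↦ E'.wt_nonneg i
  rw [hE, ← Int.toNat_of_nonneg h0]
  exact_mod_cast Nat.find_min' hex ⟨E', (Int.toNat_of_nonneg h0).symm⟩

variable {E}

/-- The fundamental exchange step. -/
theorem IsMinimal.no_exchange (hE : E.IsMinimal) {k : ℤ} {g : X → ℍ → ℂ} (hg : IsVF k g)
    (a : X → ℍ → ℂ) (φ : ℍ → ℂ)
    (heq : ∀ x z, φ z * g x z = ∑ i, a i z * E.frm i x z)
    {l : X} (ha : MDiff (a l)) (hl : a l ≠ 0) (hk : k < E.wt l) : False := by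
  classical
  have key : ∀ z, φ z * ((E.mat z).updateCol l fun x ↦ g x z).det = a l z * E.detF z := by
    intro z
    rw [← Matrix.det_updateCol_smul]
    have : (φ z • fun x ↦ g x z) = fun x ↦ ∑ i, (a i z) • E.mat z x i := by
      funext x
      simpa [mat_apply] using heq x z
    rw [this, Matrix.det_updateCol_sum (E.mat z) l (fun i ↦ a i z), smul_eq_mul, detF]
  let E' : Family X :=
    { wt := Function.update E.wt l k
      frm := Function.update E.frm l g
      isVF := fun i ↦ by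
        by_cases h : i = l
        · subst h; simpa using hg
        · simpa [h] using E.isVF i
      exists_det_ne_zero := by
        obtain ⟨z, hz⟩ : ∃ z, a l z * E.detF z ≠ 0 := by
          have : a l * E.detF ≠ 0 := by
            rw [Ne, UpperHalfPlane.mul_eq_zero_iff ha E.mdiff_detF]
            exact not_or.mpr ⟨hl, E.detF_ne_zero⟩
          simpa using Function.ne_iff.mp this
        refine ⟨z, fun h ↦ hz ?_⟩
        rw [← key z]
        convert! mul_zero (φ z)
        rw [← h]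
        congr 1
        ext x i
        by_cases hi : i = l
        · subst hi; simp
        · simp [hi, mat_apply] }
  have := hE E'
  simp only [E', Finset.sum_update_of_mem (Finset.mem_univ l)] at this
  rw [← Finset.sum_erase_add _ _ (Finset.mem_univ l), Finset.erase_eq] at this
  linarith

/-- A combination of the members with multipliers of level one. -/
theorem isVF_combination (c : X → ℂ) (m : X → ℍ → ℂ) (W : ℤ)
    (hm : ∀ i, c i ≠ 0 → IsL1 (W - E.wt i) (m i)) :
    IsVF W (fun x z ↦ ∑ i, c i * m i z * E.frm i x z) := by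
  have h : IsVF W (∑ i, c i • (fun x ↦ m i * E.frm i x)) := by
    refine IsVF.sum _ fun i _ ↦ ?_
    by_cases hc : c i = 0
    · rw [hc, zero_smul]; exact IsVF.zero
    · exact (((E.isVF i).mul_L1 (hm i hc)).of_eq (sub_add_cancel _ _)).smul (c i)
  convert! h using 1
  ext x z
  simp [Finset.sum_apply, mul_assoc]

theorem eigen_split {ι : Type*} [Fintype ι] (v : ι → X → ℂ) (χ : ι → ℂ)
    (hstab : ∀ a : ι → ℂ, (∀ x, ∑ i, a i * v i x = 0) → ∀ x, ∑ i, a i * χ i * v i x = 0)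
    {c : ι → ℂ} (hc : ∀ x, ∑ i, c i * v i x = 0) (χ₀ : ℂ) :
    ∀ x, ∑ i, (if χ i = χ₀ then c i else 0) * v i x = 0 := by
  classical
  have key : ∀ p : Polynomial ℂ, ∀ x, ∑ i, c i * p.eval (χ i) * v i x = 0 := by
    intro p
    induction p using Polynomial.induction_on' with
    | add p q hp hq => intro x; simp [mul_add, add_mul, Finset.sum_add_distrib, hp, hq]
    | monomial n a =>
      have : ∀ x, ∑ i, c i * χ i ^ n * v i x = 0 := by
        induction n with
        | zero => simpa using hc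
        | succ n ih =>
          intro x
          rw [← hstab _ ih x]
          exact Finset.sum_congr rfl fun i _ ↦ by ring
      intro x
      simp only [Polynomial.eval_monomial]
      calc ∑ i, c i * (a * χ i ^ n) * v i x = a * ∑ i, c i * χ i ^ n * v i x := by
            rw [Finset.mul_sum]; exact Finset.sum_congr rfl fun i _ ↦ by ring
        _ = 0 := by rw [this, mul_zero]
  intro x
  let s := (Finset.univ.image χ).erase χ₀
  let d := ∏ b ∈ s, (χ₀ - b)
  have hd : d ≠ 0 :=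
    Finset.prod_ne_zero_iff.mpr fun b hb ↦ sub_ne_zero.mpr (Finset.ne_of_mem_erase hb).symm
  have h := key (∏ b ∈ s, (Polynomial.X - Polynomial.C b)) x
  simp only [Polynomial.eval_prod, Polynomial.eval_sub, Polynomial.eval_X, Polynomial.eval_C] at h
  refine (mul_eq_zero.mp ?_).resolve_left hd
  rw [Finset.mul_sum]
  refine (Finset.sum_congr rfl fun i _ ↦ ?_).trans h
  split_ifs with hi
  · simp only [hi, d]; ring
  · rw [Finset.prod_eq_zero (i := χ i) (by simp [s, hi]) (sub_self _)]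
    simp

theorem exists_top {c : X → ℂ} (hc : c ≠ 0) :
    ∃ l, c l ≠ 0 ∧ ∀ i, c i ≠ 0 → E.wt i ≤ E.wt l := by
  classical
  obtain ⟨i, hi⟩ := Function.ne_iff.mp hc
  obtain ⟨l, hl, hmax⟩ := (Finset.univ.filter (fun i ↦ c i ≠ 0)).exists_max_image E.wt
    ⟨i, by simpa using hi⟩
  exact ⟨l, (Finset.mem_filter.mp hl).2, fun j hj ↦ hmax j (by simpa using hj)⟩

theorem exists_dependency {z₀ : ℍ} (h : E.detF z₀ = 0) :
    ∃ c : X → ℂ, c ≠ 0 ∧ ∀ x, ∑ i, c i * E.frm i x z₀ = 0 := by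
  obtain ⟨c, hc, h0⟩ := Matrix.exists_mulVec_eq_zero_iff.mpr h
  refine ⟨c, hc, fun x ↦ ?_⟩
  have := congrFun h0 x
  simpa [Matrix.mulVec, dotProduct, mat_apply, mul_comm] using this

theorem vanish_on_orbit {W : ℤ} {G : X → ℍ → ℂ} (hG : IsVF W G) {z₀ z : ℍ}
    (h : ∀ x, G x z₀ = 0) (hz : ∃ γ : SL(2, ℤ), γ • z₀ = z) : ∀ x, G x z = 0 := by
  obtain ⟨γ, rfl⟩ := hz
  intro x
  rw [hG.apply_smul, h, mul_zero]

/-- Invertibility at an elliptic point. -/
theorem IsMinimal.detF_ne_zero_elliptic (hE : E.IsMinimal) {z₀ : ℍ} {γ : SL(2, ℤ)}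
    (hfix : γ • z₀ = z₀) {φ q : ℍ → ℂ} {wφ wq : ℤ} (hwφ : 0 < wφ) (hφ : IsL1 wφ φ) (hφ0 : φ ≠ 0)
    (hφz : ∀ z, φ z = 0 → ∃ δ : SL(2, ℤ), δ • z₀ = z)
    (hsimple : ∀ z : ℍ, φ z = 0 → deriv (ext' φ) z ≠ 0)
    (hφ1 : Tendsto φ atImInfty (𝓝 1)) (hq : IsL1 wq q) (hqz : q z₀ ≠ 0)
    (hclass : ∀ i l, (denom γ z₀) ^ (-E.wt i) = (denom γ z₀) ^ (-E.wt l) → E.wt i ≤ E.wt l →
      ∃ a : ℕ, E.wt i + a * wq = E.wt l) :
    E.detF z₀ ≠ 0 := by
  intro hdet
  classical
  set u := denom γ (z₀ : ℂ) with hu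
  have hu0 : u ≠ 0 := denom_ne_zero γ z₀
  obtain ⟨c, hc, hdep⟩ := exists_dependency hdet
  have hrel : ∀ i x, E.frm i x z₀ = u ^ E.wt i * E.frm i (γ⁻¹ • x) z₀ := fun i x ↦ by
    have := (E.isVF i).apply_smul γ x z₀
    rwa [hfix] at this
  have hstab : ∀ a : X → ℂ, (∀ x, ∑ i, a i * E.frm i x z₀ = 0) →
      ∀ x, ∑ i, a i * u ^ (-E.wt i) * E.frm i x z₀ = 0 := by
    intro a ha x
    rw [← ha (γ⁻¹ • x)]
    refine Finset.sum_congr rfl fun i _ ↦ ?_
    rw [hrel i x, mul_assoc, ← mul_assoc (u ^ (-E.wt i)), ← zpow_add₀ hu0, neg_add_cancel,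
      zpow_zero, one_mul]
  obtain ⟨i₀, hi₀⟩ := Function.ne_iff.mp hc
  let c' : X → ℂ := fun i ↦ if u ^ (-E.wt i) = u ^ (-E.wt i₀) then c i else 0
  have hdep' : ∀ x, ∑ i, c' i * E.frm i x z₀ = 0 :=
    eigen_split (fun i x ↦ E.frm i x z₀) _ hstab hdep _
  have hc' : c' ≠ 0 := Function.ne_iff.mpr ⟨i₀, by simpa [c'] using hi₀⟩
  obtain ⟨l, hl, hmax⟩ := exists_top (E := E) hc'
  have hcls : ∀ i, c' i ≠ 0 → ∃ a : ℕ, E.wt i + a * wq = E.wt l := by
    intro i hi
    refine hclass i l ?_ (hmax i hi)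
    have h1 : u ^ (-E.wt i) = u ^ (-E.wt i₀) := by by_contra h; exact hi (if_neg h)
    have h2 : u ^ (-E.wt l) = u ^ (-E.wt i₀) := by by_contra h; exact hl (if_neg h)
    rw [h1, h2]
  choose! av hav using hcls
  let c'' : X → ℂ := fun i ↦ c' i / q z₀ ^ av i
  have hc'' : ∀ i, c'' i ≠ 0 → c' i ≠ 0 := fun i h h0 ↦ h (by simp [c'', h0])
  have hG : IsVF (E.wt l) (fun x z ↦ ∑ i, c'' i * (q ^ av i) z * E.frm i x z) :=
    isVF_combination c'' _ _ fun i hi ↦ (hq.pow (av i)).of_eq (by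
      have := hav i (hc'' i hi); linarith)
  have hG0 : ∀ x, (fun x z ↦ ∑ i, c'' i * (q ^ av i) z * E.frm i x z) x z₀ = 0 := by
    intro x
    refine (Finset.sum_congr rfl fun i _ ↦ ?_).trans (hdep' x)
    simp [c'', hqz]
  obtain ⟨g, hg, hge⟩ := hG.exists_div hφ hφ0
    (fun z hz ↦ vanish_on_orbit hG hG0 (hφz z hz)) hsimple
    (fun x ↦ bounded_div_of_tendsto (hG.bdd x) hφ1) (hφ1.eventually_ne one_ne_zero)
  refine hE.no_exchange hg (fun i z ↦ c'' i * (q ^ av i) z) φ (fun x z ↦ hge x z)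
    (l := l) ?_ ?_ (by linarith)
  · exact MDifferentiable.const_smul (c'' l) (hq.pow _).mdiff
  · intro h
    exact hl (by simpa [c'', hqz] using congrFun h z₀)

theorem exists_monomial (hneg : ∀ x : X, (-1 : SL(2, ℤ)) • x = x) (i l : X)
    (h : E.wt i ≤ E.wt l) :
    ∃ a b : ℕ, IsL1 (E.wt l + 4 - E.wt i) (e4 ^ a * e6 ^ b) := by
  obtain ⟨m, hm⟩ := E.wt_even hneg i
  obtain ⟨n, hn⟩ := E.wt_even hneg l
  have hnm : m ≤ n := by linarith
  rcases Int.even_or_odd (n - m) with ⟨t, ht⟩ | ⟨t, ht⟩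
  · refine ⟨(t + 1).toNat, 0, ?_⟩
    refine ((IsL1.e4.pow _).mul (IsL1.e6.pow 0)).of_eq ?_
    have : (((t + 1).toNat : ℕ) : ℤ) = t + 1 := Int.toNat_of_nonneg (by linarith)
    simp only [Nat.cast_zero, this]
    linarith
  · refine ⟨t.toNat, 1, ?_⟩
    refine ((IsL1.e4.pow _).mul (IsL1.e6.pow 1)).of_eq ?_
    have : ((t.toNat : ℕ) : ℤ) = t := Int.toNat_of_nonneg (by omega)
    simp only [Nat.cast_one, this]
    linarith

/-- The matrix of a family of least weight is invertible at every point. -/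
theorem IsMinimal.detF_ne_zero' (hE : E.IsMinimal)
    (hneg : ∀ x : X, (-1 : SL(2, ℤ)) • x = x) (z₀ : ℍ) : E.detF z₀ ≠ 0 := by
  by_cases h4 : e4 z₀ = 0
  · obtain ⟨δ, rfl⟩ := e4_zero_orbit h4
    rw [detF_smul]
    refine mul_ne_zero (mul_ne_zero (by simp) ?_) (zpow_ne_zero _ (denom_ne_zero _ _))
    have h6 : e6 UpperHalfPlane.ρ ≠ 0 := (e4_ne_zero_or _).resolve_left (by simp [e4_rho])
    refine hE.detF_ne_zero_elliptic ST_smul_rho (by norm_num) IsL1.e4
      (fun h ↦ one_ne_zero (tendsto_nhds_unique tendsto_e4 (h ▸ tendsto_const_nhds)))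
      (fun z hz ↦ e4_zero_orbit hz) (fun z hz ↦ deriv_e4_ne_zero hz) tendsto_e4
      IsL1.e6 h6 ?_
    intro i l h hle
    obtain ⟨m, hm⟩ := E.wt_even hneg i
    obtain ⟨n, hn⟩ := E.wt_even hneg l
    have hu0 : (UpperHalfPlane.ρ : ℂ) + 1 ≠ 0 := by
      rw [← denom_ST_rho]; exact denom_ne_zero _ _
    have hr : IsPrimitiveRoot (UpperHalfPlane.ρ : ℂ) 3 := by
      refine IsPrimitiveRoot.mk_of_lt _ (by norm_num) rho_cube fun j hj hj' hpow ↦ ?_
      have hj'' : j = 1 ∨ j = 2 := by omega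
      rcases hj'' with rfl | rfl
      · exact rho_ne_one (by simpa using hpow)
      · apply rho_ne_one
        linear_combination rho_cube - (UpperHalfPlane.ρ : ℂ) * hpow
    have hdiv : (3 : ℤ) ∣ n - m := by
      rw [denom_ST_rho] at h
      have h1 : ((UpperHalfPlane.ρ : ℂ) + 1) ^ (E.wt l - E.wt i) = 1 := by
        rw [show E.wt l - E.wt i = -E.wt i - -E.wt l by ring, zpow_sub₀ hu0, h]
        exact div_self (zpow_ne_zero _ hu0)
      rw [hm, hn, show n + n - (m + m) = (2 : ℤ) * (n - m) by ring, _root_.zpow_mul, zpow_ofNat,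
        rho_succ_sq] at h1
      exact_mod_cast (hr.zpow_eq_one_iff_dvd _).mp h1
    obtain ⟨t, ht⟩ := hdiv
    exact ⟨t.toNat, by rw [Int.toNat_of_nonneg (by linarith)]; linarith⟩
  by_cases h6 : e6 z₀ = 0
  · obtain ⟨δ, rfl⟩ := e6_zero_orbit h6
    rw [detF_smul]
    refine mul_ne_zero (mul_ne_zero (by simp) ?_) (zpow_ne_zero _ (denom_ne_zero _ _))
    have h4' : e4 UpperHalfPlane.I ≠ 0 := (e4_ne_zero_or _).resolve_right (by simp [e6_I])
    refine hE.detF_ne_zero_elliptic S_smul_I (by norm_num) IsL1.e6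
      (fun h ↦ one_ne_zero (tendsto_nhds_unique tendsto_e6 (h ▸ tendsto_const_nhds)))
      (fun z hz ↦ e6_zero_orbit hz) (fun z hz ↦ deriv_e6_ne_zero hz) tendsto_e6
      IsL1.e4 h4' ?_
    intro i l h hle
    obtain ⟨m, hm⟩ := E.wt_even hneg i
    obtain ⟨n, hn⟩ := E.wt_even hneg l
    rw [denom_S_I, hm, hn, show -(m + m) = (2 : ℤ) * (-m) by ring,
      show -(n + n) = (2 : ℤ) * (-n) by ring, _root_.zpow_mul, _root_.zpow_mul, zpow_ofNat, Complex.I_sq] at h
    have hev : Even (n - m) := by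
      rcases Int.even_or_odd (n - m) with he | ho
      · exact he
      · exfalso
        have : ((-1 : ℂ)) ^ (n - m) = 1 := by
          rw [show n - m = -m - -n by ring, zpow_sub₀ (by norm_num), h]
          exact div_self (zpow_ne_zero _ (by norm_num))
        rw [ho.neg_one_zpow] at this
        norm_num at this
    obtain ⟨t, ht⟩ := hev
    exact ⟨t.toNat, by rw [Int.toNat_of_nonneg (by linarith)]; linarith⟩
  · intro hdet
    classical
    obtain ⟨c, hc, hdep⟩ := exists_dependency hdet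
    obtain ⟨l, hl, hmax⟩ := exists_top (E := E) hc
    choose! a b hab using fun i (hi : c i ≠ 0) ↦ exists_monomial (E := E) hneg i l (hmax i hi)
    have hm0 : ∀ i, (e4 ^ a i * e6 ^ b i) z₀ ≠ 0 := fun i ↦ by simp [h4, h6]
    let c'' : X → ℂ := fun i ↦ c i / (e4 ^ a i * e6 ^ b i) z₀
    have hc'' : ∀ i, c'' i ≠ 0 → c i ≠ 0 := fun i h h0 ↦ h (by simp [c'', h0])
    have hG : IsVF (E.wt l + 4) (fun x z ↦ ∑ i, c'' i * (e4 ^ a i * e6 ^ b i) z * E.frm i x z) :=
      isVF_combination c'' _ _ fun i hi ↦ hab i (hc'' i hi)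
    have hG0 : ∀ x, (fun x z ↦ ∑ i, c'' i * (e4 ^ a i * e6 ^ b i) z * E.frm i x z) x z₀ = 0 := by
      intro x
      refine (Finset.sum_congr rfl fun i _ ↦ ?_).trans (hdep x)
      simp only [c'', div_mul_cancel₀ _ (hm0 i)]
    have hφ0 : phi12 z₀ ≠ 0 := fun h ↦
      one_ne_zero (tendsto_nhds_unique (tendsto_phi12 z₀) (h ▸ tendsto_const_nhds))
    obtain ⟨g, hg, hge⟩ := hG.exists_div (isL1_phi12 z₀) hφ0
      (fun z hz ↦ vanish_on_orbit hG hG0 (phi12_zero hz))
      (fun z hz ↦ deriv_phi12_ne_zero h4 h6 hz)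
      (fun x ↦ bounded_div_of_tendsto (hG.bdd x) (tendsto_phi12 z₀))
      ((tendsto_phi12 z₀).eventually_ne one_ne_zero)
    refine hE.no_exchange hg (fun i z ↦ c'' i * (e4 ^ a i * e6 ^ b i) z) (phi12 z₀)
      (fun x z ↦ hge x z) (l := l) ?_ ?_ (by linarith)
    · exact MDifferentiable.const_smul (c'' l) ((mdiff_e4.pow _).mul (mdiff_e6.pow _))
    · intro h
      exact hl (by simpa [c'', div_mul_cancel₀ _ (hm0 l), h4, h6] using congrFun h z₀)

end Family

end Fermat.Agent.DimLower
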