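/-
A family of least weight at infinity; its total weight, the traces at the elliptic points and
the dual family.
-/
import Fermat.Agent.DimLower.Minimal

set_option autoImplicit false
set_option linter.unusedSectionVars false

noncomputable section

namespace Fermat.Agent.DimLower

open UpperHalfPlane Filter Topology Complex Asymptotics Matrix
open scoped MatrixGroups ModularForm Manifold Real
open ModularGroup (S T)

theorem isL1_of_apply {k : ℤ} {f : ℍ → ℂ} (hm : MDiff f) (hb : IsBoundedAtImInfty f)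
    (h : ∀ (γ : SL(2, ℤ)) (z : ℍ), f (γ • z) = (denom γ z) ^ k * f z) : IsL1 k f := by
  refine ⟨hm, fun γ ↦ funext fun z ↦ ?_, hb⟩
  rw [ModularForm.SL_slash_apply, h, mul_comm, ← mul_assoc, ← zpow_add₀ (denom_ne_zero γ z),
    neg_add_cancel, zpow_zero, one_mul]

theorem IsL1.apply_T {k : ℤ} {f : ℍ → ℂ} (h : IsL1 k f) (z : ℍ) : f (T • z) = f z := by
  have hT : denom T (z : ℂ) = 1 := by rw [ModularGroup.denom_apply]; simp [ModularGroup.T]
  rw [h.apply_smul, hT, _root_.one_zpow, one_mul]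

theorem tendsto_qParam_div_disc :
    Tendsto (fun z : ℍ ↦ Function.Periodic.qParam 1 (z : ℂ) / disc z) atImInfty (𝓝 1) := by
  have h := ModularForm.tendsto_atImInfty_tprod_one_sub_eta_q_pow.inv₀ one_ne_zero
  rw [inv_one] at h
  refine h.congr fun z ↦ ?_
  rw [show disc z = _ from ModularForm.discriminant_eq_q_prod z, div_mul_eq_div_div,
    div_self (Function.Periodic.qParam_ne_zero (h := 1) (z : ℂ)), one_div]

variable {X : Type*} [Fintype X] [DecidableEq X] [MulAction SL(2, ℤ) X]

namespace Family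

variable (E : Family X)

/-- The family matrix normalised at infinity. -/
def infMat (z : ℍ) : Matrix X X ℂ := eigMat X (fun r ↦ (tPar X z ^ r)⁻¹) * E.mat z

theorem mat_eq (z : ℍ) : E.mat z = eigMat X (fun r ↦ tPar X z ^ r) * E.infMat z := by
  rw [infMat, ← mul_assoc, eigMat_mul]
  have : ((fun r ↦ tPar X z ^ r) * fun r ↦ (tPar X z ^ r)⁻¹) = (1 : ℕ → ℂ) :=
    funext fun r ↦ mul_inv_cancel₀ (pow_ne_zero r (tPar_ne_zero X z))
  rw [this, eigMat_one, one_mul]

theorem infMat_T (z : ℍ) : E.infMat (T • z) = E.infMat z := by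
  rw [infMat, infMat, mat_T, ← mul_assoc, eigMat_mul_permMat_T]
  congr 1
  refine eigMat_congr X fun r _ ↦ ?_
  rw [tPar_T, mul_pow, mul_inv, mul_comm ((zeta X ^ r)⁻¹),
    inv_mul_cancel_right₀ (pow_ne_zero r (zeta_ne_zero X))]

theorem infMat_apply (z : ℍ) (x i : X) :
    E.infMat z x i
      = ∑ r ∈ Finset.range (per X), (tPar X z ^ r)⁻¹ * (projMat X r * E.mat z) x i := by
  simp [infMat, eigMat, Matrix.sum_mul, Matrix.sum_apply]

theorem projMat_mat_props (r : ℕ) (x i : X) :
    MDiff (fun z ↦ (projMat X r * E.mat z) x i) ∧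
      IsBoundedAtImInfty (fun z ↦ (projMat X r * E.mat z) x i) := by
  have e : (fun z ↦ (projMat X r * E.mat z) x i) = ∑ y, projMat X r x y • E.frm i y := by
    funext z; simp [Matrix.mul_apply, mat_apply]
  rw [e]
  refine ⟨Finset.sum_induction _ (fun f : ℍ → ℂ ↦ MDiff f) (fun _ _ ↦ MDifferentiable.add)
    mdifferentiable_const fun y _ ↦ MDifferentiable.const_smul _ ((E.isVF i).mdiff y),
    Finset.sum_induction _ IsBoundedAtImInfty (fun _ _ h h' ↦ h.add h')
      zero_form_isBoundedAtImInfty fun y _ ↦ ?_⟩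
  exact ((E.isVF i).bdd y).const_mul_left _

theorem mdiff_infMat (x i : X) : MDiff (fun z ↦ E.infMat z x i) := by
  have e : (fun z ↦ E.infMat z x i) = ∑ r ∈ Finset.range (per X),
      (fun z ↦ (tPar X z ^ r)⁻¹) * fun z ↦ (projMat X r * E.mat z) x i := by
    funext z; simp [infMat_apply]
  rw [e]
  exact Finset.sum_induction _ (fun f : ℍ → ℂ ↦ MDiff f) (fun _ _ ↦ MDifferentiable.add)
    mdifferentiable_const fun r _ ↦ (mdiff_tPar_pow X r).mul (E.projMat_mat_props r x i).1

theorem bdd_infMat (x i : X) : IsBoundedAtImInfty (fun z ↦ E.infMat z x i) := by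
  simp only [infMat_apply]
  refine IsBigO.fun_sum fun r hr ↦ ?_
  obtain ⟨h1, h2⟩ := E.projMat_mat_props r x i
  refine bdd_div_tPar_pow X r (Finset.mem_range.mp hr) _ h1 h2 fun z ↦ ?_
  rw [mat_T, ← mul_assoc, projMat_mul_T, Matrix.smul_mul, Matrix.smul_apply, smul_eq_mul]

theorem periodic_infMat (x i : X) : Function.Periodic (ext' fun z ↦ E.infMat z x i) (1 : ℝ) := by
  have := periodic_of_T (h := fun z ↦ E.infMat z x i) (n := 1) fun z ↦ by
    simp only [pow_one, infMat_T]
  simpa using this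

/-- The limit of the normalised matrix at infinity. -/
def infLim : Matrix X X ℂ := Matrix.of fun x i ↦ valueAtInfty (fun z ↦ E.infMat z x i)

theorem tendsto_infMat : Tendsto E.infMat atImInfty (𝓝 E.infLim) :=
  tendsto_pi_nhds.mpr fun x ↦ tendsto_pi_nhds.mpr fun i ↦
    tendsto_valueAtInfty (E.periodic_infMat x i) (E.mdiff_infMat x i) (E.bdd_infMat x i)

theorem norm_tPar_le_one (z : ℍ) : ‖tPar X z‖ ≤ 1 :=
  (Function.Periodic.norm_qParam_lt_one (by exact_mod_cast per_pos X) z.im_pos).le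

theorem norm_tPar_pow_per (z : ℍ) :
    ‖tPar X z ^ per X‖ = Real.exp (-2 * π * z.im) := by
  rw [tPar_pow_per, Function.Periodic.norm_qParam, UpperHalfPlane.coe_im, div_one]

theorem tendsto_tPar : Tendsto (tPar X) atImInfty (𝓝 0) :=
  qParam_tendsto_atImInfty (by exact_mod_cast per_pos X)

/-- A family of least weight is invertible at infinity. -/
theorem IsMinimal.det_infLim_ne_zero {E : Family X} (hE : E.IsMinimal)
    (hneg : ∀ x : X, (-1 : SL(2, ℤ)) • x = x) : E.infLim.det ≠ 0 := by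
  intro hdet
  classical
  obtain ⟨c, hc, hc0⟩ := Matrix.exists_mulVec_eq_zero_iff.mpr hdet
  obtain ⟨l, hl, hmax⟩ := exists_top (E := E) hc
  choose! a b hab using fun i (hi : c i ≠ 0) ↦ exists_monomial (E := E) hneg i l (hmax i hi)
  set m : X → ℍ → ℂ := fun i ↦ if c i = 0 then 0 else e4 ^ a i * e6 ^ b i with hm
  have hmL : ∀ i, c i ≠ 0 → IsL1 (E.wt l + 4 - E.wt i) (m i) := fun i hi ↦ by
    simp only [hm, if_neg hi]; exact hab i hi
  have hm1 : ∀ i, c i ≠ 0 → Tendsto (m i) atImInfty (𝓝 1) := fun i hi ↦ by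
    simp only [hm, if_neg hi]
    have := (tendsto_e4.pow (a i)).mul (tendsto_e6.pow (b i))
    simp only [one_pow, mul_one] at this
    exact this
  let col : X → ℍ → ℂ := fun x z ↦ ∑ i, c i * m i z * E.infMat z x i
  have hcol0 : ∀ x, IsZeroAtImInfty (col x) := by
    intro x
    have h : Tendsto (col x) atImInfty (𝓝 (∑ i, c i * E.infLim x i)) := by
      refine tendsto_finsetSum _ fun i _ ↦ ?_
      by_cases hi : c i = 0
      · simp [hi]
      · have := (((hm1 i hi).const_mul (c i))).mul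
          (tendsto_pi_nhds.mp (tendsto_pi_nhds.mp E.tendsto_infMat x) i)
        simpa using this
    have h0 : ∑ i, c i * E.infLim x i = 0 := by
      have := congrFun hc0 x
      simpa [Matrix.mulVec, dotProduct, mul_comm] using this
    rwa [h0] at h
  have hcolper : ∀ x, Function.Periodic (ext' (col x)) (1 : ℝ) := by
    intro x
    have := periodic_of_T (h := col x) (n := 1) fun z ↦ by
      simp only [pow_one, col, infMat_T]
      refine Finset.sum_congr rfl fun i _ ↦ ?_
      by_cases hi : c i = 0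
      · simp [hi]
      · rw [(hmL i hi).apply_T]
    simpa using this
  have hcolm : ∀ x, MDiff (col x) := by
    intro x
    have e : col x = ∑ i, c i • (m i * fun z ↦ E.infMat z x i) := by
      funext z; simp [col, Finset.sum_apply, mul_assoc]
    rw [e]
    refine Finset.sum_induction _ (fun f : ℍ → ℂ ↦ MDiff f) (fun _ _ ↦ MDifferentiable.add)
      mdifferentiable_const fun i _ ↦ MDifferentiable.const_smul _ ?_
    refine MDifferentiable.mul ?_ (E.mdiff_infMat x i)
    by_cases hi : c i = 0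
    · simp only [hm, if_pos hi]; exact mdifferentiable_const
    · exact (hmL i hi).mdiff
  have hcolO : ∀ x, col x =O[atImInfty] disc := fun x ↦
    (((hcol0 x).exp_decay_atImInfty one_pos (hcolper x) (hcolm x)
      (hcol0 x).isBoundedAtImInfty).congr_right fun z ↦ by rw [div_one]).trans
      ModularForm.exp_isBigO_discriminant
  have hG : IsVF (E.wt l + 4) (fun x z ↦ ∑ i, c i * m i z * E.frm i x z) :=
    isVF_combination c m _ hmL
  have hGe : ∀ x z, ∑ i, c i * m i z * E.frm i x z
      = ∑ y, eigMat X (fun r ↦ tPar X z ^ r) x y * col y z := by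
    intro x z
    simp only [col, Finset.mul_sum]
    rw [Finset.sum_comm]
    refine Finset.sum_congr rfl fun i _ ↦ ?_
    rw [← mat_apply, mat_eq, Matrix.mul_apply, Finset.mul_sum]
    exact Finset.sum_congr rfl fun y _ ↦ by ring
  have hGO : ∀ x, (fun z ↦ ∑ i, c i * m i z * E.frm i x z) =O[atImInfty] disc := by
    intro x
    simp only [hGe]
    refine IsBigO.fun_sum fun y _ ↦ ?_
    have h1 : (fun z ↦ eigMat X (fun r ↦ tPar X z ^ r) x y) =O[atImInfty] (1 : ℍ → ℂ) := by
      simp only [eigMat, Matrix.sum_apply, Matrix.smul_apply, smul_eq_mul]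
      refine IsBigO.fun_sum fun r _ ↦ ?_
      refine IsBigO.of_bound ‖projMat X r x y‖ (Eventually.of_forall fun z ↦ ?_)
      rw [norm_mul, norm_pow, Pi.one_apply, norm_one, mul_one]
      exact mul_le_of_le_one_left (norm_nonneg _)
        (pow_le_one₀ (norm_nonneg _) (norm_tPar_le_one z))
    simpa using h1.mul (hcolO y)
  obtain ⟨g, hg, hge⟩ := hG.exists_div IsL1.disc
    (fun h ↦ ModularForm.discriminant_ne_zero UpperHalfPlane.I (congrFun h _))
    (fun z hz ↦ absurd hz (ModularForm.discriminant_ne_zero z))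
    (fun z hz ↦ absurd hz (ModularForm.discriminant_ne_zero z))
    (fun x ↦ (div_isBoundedUnder_of_isBigO (hGO x)).isBigO_one ℝ)
    (Eventually.of_forall ModularForm.discriminant_ne_zero)
  refine hE.no_exchange hg (fun i z ↦ c i * m i z) disc (fun x z ↦ hge x z)
    (l := l) ?_ ?_ (by linarith)
  · exact MDifferentiable.const_smul (c l) (hmL l hl).mdiff
  · intro h
    have ht : Tendsto (fun z ↦ c l * m l z) atImInfty (𝓝 (c l)) := by
      simpa using (hm1 l hl).const_mul (c l)
    exact hl (tendsto_nhds_unique ht (by rw [show (fun z ↦ c l * m l z) = 0 from h]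
                                         exact tendsto_const_nhds))

theorem detF_eq (z : ℍ) : E.detF z = tPar X z ^ totalExp X * (E.infMat z).det := by
  rw [detF, mat_eq, Matrix.det_mul, det_eigMat, totalExp, ← Finset.prod_pow_eq_pow_sum]
  congr 1
  exact Finset.prod_congr rfl fun r _ ↦ by rw [pow_mul]

theorem IsMinimal.total_wt {E : Family X} (hE : E.IsMinimal)
    (hneg : ∀ x : X, (-1 : SL(2, ℤ)) • x = x) :
    (∑ i, E.wt i) + 6 * (Nat.card (MulAction.orbitRel.Quotient (Subgroup.zpowers T) X) : ℤ)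
      = 6 * (Fintype.card X : ℤ) := by
  set C := Nat.card (MulAction.orbitRel.Quotient (Subgroup.zpowers T) X) with hC
  set W := ∑ i, E.wt i with hW
  have hEq := two_mul_totalExp X
  rw [← hC] at hEq
  have hCle : C ≤ Fintype.card X :=
    Nat.le_of_mul_le_mul_left (Nat.le.intro (by rw [add_comm]; exact hEq)) (per_pos X)
  obtain ⟨n, hn⟩ := Nat.exists_eq_add_of_le hCle
  have h2E : 2 * totalExp X = per X * n := by rw [hn, mul_add] at hEq; omega
  have hD : ∀ z, E.detF z ≠ 0 := hE.detF_ne_zero' hneg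
  let f : ℍ → ℂ := fun z ↦ E.detF z ^ 2 / disc z ^ n
  have hf0 : ∀ z, f z ≠ 0 := fun z ↦
    div_ne_zero (pow_ne_zero _ (hD z)) (pow_ne_zero _ (ModularForm.discriminant_ne_zero z))
  have hfe : ∀ z, f z
      = (Function.Periodic.qParam 1 (z : ℂ) / disc z) ^ n * (E.infMat z).det ^ 2 := by
    intro z
    simp only [f, detF_eq, mul_pow, ← pow_mul, div_pow, ← tPar_pow_per X z]
    rw [mul_comm (totalExp X) 2, h2E]
    ring
  have hlim : Tendsto f atImInfty (𝓝 (E.infLim.det ^ 2)) := by
    have h1 := ((tendsto_qParam_div_disc.pow n).mul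
      (((Continuous.matrix_det continuous_id).tendsto E.infLim).comp E.tendsto_infMat |>.pow 2))
    simp only [one_pow, one_mul] at h1
    exact h1.congr fun z ↦ (hfe z).symm
  have hfm : MDiff f :=
    ((E.mdiff_detF.pow 2).div (mdiff_disc.pow n))
      fun z ↦ pow_ne_zero n (ModularForm.discriminant_ne_zero z)
  have hfi : MDiff (fun z ↦ (f z)⁻¹) :=
    by
    have e : (fun z ↦ (f z)⁻¹) = (fun _ : ℍ ↦ (1 : ℂ)) / f := funext fun z ↦ by simp
    rw [e]
    exact mdifferentiable_const.div hfm hf0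
  have hsl : ∀ (γ : SL(2, ℤ)) (z : ℍ),
      f (γ • z) = (denom γ z) ^ (2 * W - 12 * (n : ℤ)) * f z := by
    intro γ z
    have hu := denom_ne_zero γ z
    have hs : (((Equiv.Perm.sign (MulAction.toPerm γ⁻¹ : Equiv.Perm X) : ℤ) : ℂ)) ^ 2 = 1 := by
      rw [← Int.cast_pow, ← Units.val_pow_eq_pow_val, Int.units_sq]; simp
    simp only [f, detF_smul, disc_smul, mul_pow, hs, one_mul, ← hW]
    rw [← zpow_natCast ((denom γ z : ℂ) ^ W) 2, ← zpow_natCast ((denom γ z : ℂ) ^ (12 : ℤ)) n,
      ← _root_.zpow_mul, ← _root_.zpow_mul, zpow_sub₀ hu]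
    push_cast
    rw [mul_comm W 2]
    field_simp
  have hL : E.infLim.det ^ 2 ≠ 0 := pow_ne_zero _ (hE.det_infLim_ne_zero hneg)
  have h1 : IsL1 (2 * W - 12 * (n : ℤ)) f := isL1_of_apply hfm (hlim.isBigO_one ℝ) hsl
  have h2 : IsL1 (-(2 * W - 12 * (n : ℤ))) (fun z ↦ (f z)⁻¹) :=
    isL1_of_apply hfi ((hlim.inv₀ hL).isBigO_one ℝ) fun γ z ↦ by
      rw [hsl, mul_inv, _root_.zpow_neg]
  have hW2 : 2 * W - 12 * (n : ℤ) = 0 := by
    rcases lt_trichotomy (2 * W - 12 * (n : ℤ)) 0 with h | h | h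
    · exact absurd (congrFun (h1.eq_zero_of_neg h) UpperHalfPlane.I) (hf0 _)
    · exact h
    · exact absurd (congrFun (h2.eq_zero_of_neg (neg_neg_of_pos h)) UpperHalfPlane.I)
        (inv_ne_zero (hf0 _))
  rw [hn]
  push_cast
  linarith

/-- Trace of a stabilising element in terms of the weights. -/
theorem trace_at_fixed {z₀ : ℍ} {γ : SL(2, ℤ)} (hfix : γ • z₀ = z₀) (hdet : E.detF z₀ ≠ 0) :
    (Nat.card {x : X // γ • x = x} : ℂ) = ∑ i, (denom γ z₀) ^ (-E.wt i) := by
  have hu := denom_ne_zero γ z₀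
  have h := E.mat_smul γ z₀
  rw [hfix] at h
  have hunit : IsUnit (E.mat z₀).det := isUnit_iff_ne_zero.mpr hdet
  let Di : Matrix X X ℂ := Matrix.diagonal (fun i ↦ (denom γ z₀) ^ (-E.wt i))
  have h1 : permMat X γ * E.mat z₀ = E.mat z₀ * Di := by
    conv_rhs => rw [h]
    rw [mul_assoc, Matrix.diagonal_mul_diagonal]
    simp [mul_inv_cancel₀ (zpow_ne_zero _ hu)]
  have h2 : permMat X γ = E.mat z₀ * Di * (E.mat z₀)⁻¹ := by
    rw [← h1, mul_assoc, Matrix.mul_nonsing_inv _ hunit, mul_one]
  rw [← trace_permMat, h2, Matrix.trace_mul_comm, ← mul_assoc, Matrix.nonsing_inv_mul _ hunit,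
    one_mul, Matrix.trace_diagonal]

/-- The dual family: `Δ` times the rows of the inverse matrix. -/
def dual (i : X) : X → ℍ → ℂ := fun x z ↦ disc z * (E.mat z)⁻¹ i x

theorem IsMinimal.isVC_dual {E : Family X} (hE : E.IsMinimal)
    (hneg : ∀ x : X, (-1 : SL(2, ℤ)) • x = x) (i : X) : IsVC (12 - E.wt i) (E.dual i) := by
  have hD : ∀ z, E.detF z ≠ 0 := hE.detF_ne_zero' hneg
  have hmd : ∀ x, MDiff (E.dual i x) := by
    intro x
    have hadj : MDiff (fun z ↦ (E.mat z).adjugate i x) := by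
      have e : (fun z ↦ (E.mat z).adjugate i x) = ∑ σ : Equiv.Perm X,
          ((Equiv.Perm.sign σ : ℤ) : ℂ) •
            ∏ j, (fun z ↦ ((E.mat z).updateRow x (Pi.single i 1)) (σ j) j) := by
        funext z
        simp only [Matrix.adjugate_apply, Matrix.det_apply', Finset.sum_apply, Pi.smul_apply,
          Finset.prod_apply, smul_eq_mul]
      rw [e]
      refine Finset.sum_induction _ (fun f : ℍ → ℂ ↦ MDiff f) (fun _ _ ↦ MDifferentiable.add)
        mdifferentiable_const fun σ _ ↦ MDifferentiable.const_smul _ ?_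
      refine Finset.prod_induction _ (fun f : ℍ → ℂ ↦ MDiff f) (fun _ _ ↦ MDifferentiable.mul)
        mdifferentiable_const fun j _ ↦ ?_
      by_cases h : σ j = x
      · simp only [h, Matrix.updateRow_self]; exact mdifferentiable_const
      · simp only [Matrix.updateRow_ne h, mat_apply]; exact (E.isVF j).mdiff _
    have e : E.dual i x = disc * fun z ↦ (E.mat z).adjugate i x / E.detF z := by
      funext z
      simp [dual, Matrix.inv_def, detF, div_eq_inv_mul]
    rw [e]
    exact mdiff_disc.mul (hadj.div E.mdiff_detF hD)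
  have hz : ∀ x, IsZeroAtImInfty (E.dual i x) := by
    intro x
    have hinv : ∀ z, (E.mat z)⁻¹
        = (E.infMat z)⁻¹ * eigMat X (fun r ↦ (tPar X z ^ r)⁻¹) := by
      intro z
      have hu : IsUnit (E.infMat z).det :=
        isUnit_iff_ne_zero.mpr fun h ↦ hD z (by rw [detF_eq, h, mul_zero])
      refine Matrix.inv_eq_left_inv ?_
      rw [mul_assoc, ← infMat, Matrix.nonsing_inv_mul _ hu]
    have hT : Tendsto (fun z ↦ (E.infMat z)⁻¹) atImInfty (𝓝 (E.infLim)⁻¹) := by
      simp only [Matrix.inv_def]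
      refine Tendsto.smul ?_
        (((Continuous.matrix_adjugate continuous_id).tendsto _).comp E.tendsto_infMat)
      simp only [Ring.inverse_eq_inv']
      exact (((Continuous.matrix_det continuous_id).tendsto _).comp E.tendsto_infMat).inv₀
        (hE.det_infLim_ne_zero hneg)
    have hr : ∀ r < per X, Tendsto (fun z ↦ disc z * (tPar X z ^ r)⁻¹) atImInfty (𝓝 0) := by
      intro r hr
      have h1 : Tendsto (fun z ↦ (disc z / Function.Periodic.qParam 1 (z : ℂ))
          * tPar X z ^ (per X - r)) atImInfty (𝓝 0) := by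
        have := (tendsto_qParam_div_disc.inv₀ one_ne_zero).mul
          ((tendsto_tPar (X := X)).pow (per X - r))
        rw [zero_pow (by omega), mul_zero] at this
        exact this.congr fun z ↦ by rw [inv_div]
      refine h1.congr fun z ↦ ?_
      rw [← tPar_pow_per X z, pow_sub₀ _ (tPar_ne_zero X z) hr.le]
      have := pow_ne_zero (per X) (tPar_ne_zero X z)
      field_simp
    have : ∀ z, E.dual i x z = ∑ y, ∑ r ∈ Finset.range (per X),
        (E.infMat z)⁻¹ i y * projMat X r y x * (disc z * (tPar X z ^ r)⁻¹) := by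
      intro z
      rw [dual, hinv, Matrix.mul_apply, Finset.mul_sum]
      refine Finset.sum_congr rfl fun y _ ↦ ?_
      simp only [eigMat, Matrix.sum_apply, Matrix.smul_apply, smul_eq_mul, Finset.mul_sum]
      exact Finset.sum_congr rfl fun r _ ↦ by ring
    refine Tendsto.congr (fun z ↦ (this z).symm) ?_
    rw [show (0 : ℂ) = ∑ _y : X, ∑ _r ∈ Finset.range (per X), (0 : ℂ) by simp]
    refine tendsto_finsetSum _ fun y _ ↦ tendsto_finsetSum _ fun r hr' ↦ ?_
    have := (((tendsto_pi_nhds.mp (tendsto_pi_nhds.mp hT i) y)).mul_const (projMat X r y x)).mul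
      (hr r (Finset.mem_range.mp hr'))
    simpa using this
  refine ⟨⟨hmd, fun γ x ↦ funext fun z ↦ ?_, fun x ↦ (hz x).isBoundedAtImInfty⟩, hz⟩
  have hu := denom_ne_zero γ z
  have hzu : IsUnit (E.mat z).det := isUnit_iff_ne_zero.mpr (hD z)
  have hinv : (E.mat (γ • z))⁻¹ = Matrix.diagonal (fun j ↦ (denom γ z) ^ (-E.wt j)) *
      (E.mat z)⁻¹ * permMat X γ⁻¹ := by
    refine Matrix.inv_eq_left_inv ?_
    rw [mat_smul, mul_assoc, ← mul_assoc (permMat X γ⁻¹), ← mul_assoc (permMat X γ⁻¹),
      permMat_mul, inv_mul_cancel, permMat_one, one_mul, mul_assoc,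
      ← mul_assoc ((E.mat z)⁻¹), Matrix.nonsing_inv_mul _ hzu, one_mul,
      Matrix.diagonal_mul_diagonal]
    simp [inv_mul_cancel₀ (zpow_ne_zero _ hu)]
  rw [ModularForm.SL_slash_apply]
  simp only [dual, disc_smul, hinv]
  rw [Matrix.mul_apply, Finset.sum_eq_single_of_mem (γ⁻¹ • x) (Finset.mem_univ _)
    (fun y _ hy ↦ by
      have h : γ • y ≠ x := fun h ↦ hy (eq_inv_smul_iff.mpr h)
      simp [permMat, h]), Matrix.diagonal_mul]
  simp only [permMat, inv_inv, smul_inv_smul, Matrix.of_apply, if_true, mul_one]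
  rw [show -(12 - E.wt i) = E.wt i + -(12 : ℤ) by ring, zpow_add₀ hu, _root_.zpow_neg, _root_.zpow_neg]
  field_simp

end Family

end Fermat.Agent.DimLower
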