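/-
Counting the weights of a family of least weight: the dimension of the weight two cusp forms.
-/
import Fermat.Agent.DimLower.Infinity

set_option autoImplicit false
set_option linter.unusedSectionVars false

noncomputable section

namespace Fermat.Agent.DimLower

open UpperHalfPlane Filter Topology Complex Asymptotics Matrix
open scoped MatrixGroups ModularForm Manifold Real
open ModularGroup (S T)

variable {X : Type*} [Fintype X] [DecidableEq X] [MulAction SL(2, ℤ) X]
  [MulAction.IsPretransitive SL(2, ℤ) X]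

variable (X) in
/-- The space of vector valued cusp forms. -/
def vcSub (k : ℤ) : Submodule ℂ (X → ℍ → ℂ) where
  carrier := {F | IsVC k F}
  zero_mem' := IsVC.zero'
  add_mem' := fun {F G} hF hG ↦ ⟨hF.toIsVF.add hG.toIsVF, fun x ↦ by
    simpa [IsZeroAtImInfty, ZeroAtFilter] using (hF.zero x).add (hG.zero x)⟩
  smul_mem' := fun c F hF ↦ ⟨hF.toIsVF.smul c, fun x ↦ by
    have := (hF.zero x).const_mul c
    rw [mul_zero] at this
    exact this⟩

theorem IsVC.eq_zero_of_nonpos {k : ℤ} {F : X → ℍ → ℂ} (h : IsVC k F) (hk : k ≤ 0) : F = 0 := by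
  rcases hk.lt_or_eq with hk | rfl
  · exact h.toIsVF.eq_zero_of_neg hk
  · obtain ⟨c, hc⟩ := h.toIsVF.exists_const
    funext x z
    have hF : F x = fun _ ↦ c := funext (hc x)
    have h1 := h.zero x
    rw [hF] at h1
    rw [hc]
    exact tendsto_nhds_unique (l := atImInfty) tendsto_const_nhds h1

namespace Family

variable {E : Family X}

variable (E) in
/-- The number of members of weight `k`. -/
def num (k : ℤ) : ℕ := (Finset.univ.filter (fun i ↦ E.wt i = k)).card

theorem sum_dual_mul (hD : ∀ z, E.detF z ≠ 0) (g : X → ℂ) (z : ℍ) (x : X) :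
    disc z * g x = ∑ i, (∑ y, E.frm i y z * g y) * E.dual i x z := by
  have hu : IsUnit (E.mat z).det := isUnit_iff_ne_zero.mpr (hD z)
  have h := congrFun (Matrix.vecMul_vecMul g (E.mat z) (E.mat z)⁻¹) x
  rw [Matrix.mul_nonsing_inv _ hu, Matrix.vecMul_one] at h
  rw [← h]
  simp only [Matrix.vecMul, dotProduct, dual, mat_apply, Finset.mul_sum]
  refine Finset.sum_congr rfl fun i _ ↦ ?_
  simp only [Finset.sum_mul]
  rw [Finset.mul_sum]
  exact Finset.sum_congr rfl fun y _ ↦ by ring

theorem sum_frm_mul_dual (hD : ∀ z, E.detF z ≠ 0) (i j : X) (z : ℍ) :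
    ∑ x, E.dual i x z * E.frm j x z = if i = j then disc z else 0 := by
  have hu : IsUnit (E.mat z).det := isUnit_iff_ne_zero.mpr (hD z)
  have h := congrFun (congrFun (Matrix.nonsing_inv_mul _ hu) i) j
  rw [Matrix.mul_apply, Matrix.one_apply] at h
  have h' := congrArg (disc z * ·) h
  simp only [Finset.mul_sum, mul_ite, mul_one, mul_zero] at h'
  rw [← h']
  simp [dual, mat_apply, mul_assoc]

theorem IsMinimal.wt_cases (hE : E.IsMinimal) (hneg : ∀ x : X, (-1 : SL(2, ℤ)) • x = x) (i : X) :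
    E.wt i ∈ ({0, 2, 4, 6, 8, 10} : Finset ℤ) := by
  have h0 := E.wt_nonneg i
  obtain ⟨m, hm⟩ := E.wt_even hneg i
  have h12 : E.wt i < 12 := by
    by_contra h
    have hz := (hE.isVC_dual hneg i).eq_zero_of_nonpos (by omega)
    have := sum_frm_mul_dual (hE.detF_ne_zero' hneg) i i UpperHalfPlane.I
    simp [hz] at this
    exact ModularForm.discriminant_ne_zero _ this.symm
  simp only [Finset.mem_insert, Finset.mem_singleton]
  omega

theorem IsMinimal.sum_eq (hE : E.IsMinimal) (hneg : ∀ x : X, (-1 : SL(2, ℤ)) • x = x)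
    {M : Type*} [AddCommMonoid M] (f : ℤ → M) :
    ∑ i, f (E.wt i) = E.num 0 • f 0 + E.num 2 • f 2 + E.num 4 • f 4 + E.num 6 • f 6
      + E.num 8 • f 8 + E.num 10 • f 10 := by
  rw [← Finset.sum_fiberwise_of_maps_to (t := ({0, 2, 4, 6, 8, 10} : Finset ℤ)) (g := E.wt)
    fun i _ ↦ hE.wt_cases hneg i]
  have : ∀ k, ∑ i ∈ Finset.univ.filter (fun i ↦ E.wt i = k), f (E.wt i) = E.num k • f k := by
    intro k
    rw [Finset.sum_congr rfl fun i hi ↦ by rw [(Finset.mem_filter.mp hi).2], Finset.sum_const]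
    rfl
  simp [this, add_assoc]

theorem IsMinimal.num_zero [Nonempty X] (hE : E.IsMinimal)
    (hneg : ∀ x : X, (-1 : SL(2, ℤ)) • x = x) : E.num 0 = 1 := by
  have hD := hE.detF_ne_zero' hneg
  refine le_antisymm (Finset.card_le_one.mpr fun i hi j hj ↦ ?_) ?_
  · by_contra hij
    obtain ⟨a, ha⟩ := ((E.isVF i).of_eq (Finset.mem_filter.mp hi).2).exists_const
    obtain ⟨b, hb⟩ := ((E.isVF j).of_eq (Finset.mem_filter.mp hj).2).exists_const
    have h1 := sum_frm_mul_dual hD i j UpperHalfPlane.I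
    have h2 := sum_frm_mul_dual hD j j UpperHalfPlane.I
    have h3 := sum_frm_mul_dual hD j i UpperHalfPlane.I
    have h4 := sum_frm_mul_dual hD i i UpperHalfPlane.I
    simp only [ha, hb, if_pos, if_neg hij, if_neg (Ne.symm hij), ← Finset.sum_mul] at h1 h2 h3 h4
    have hd := ModularForm.discriminant_ne_zero UpperHalfPlane.I
    rcases mul_eq_zero.mp h1 with h | h
    · rw [h, zero_mul] at h4; exact hd h4.symm
    · rw [h, mul_zero] at h2; exact hd h2.symm
  · rw [Nat.one_le_iff_ne_zero]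
    intro h0
    obtain ⟨x⟩ := ‹Nonempty X›
    have hne : ∀ i, E.wt i ≠ 0 := fun i hi ↦
      (Finset.card_pos.mpr ⟨i, Finset.mem_filter.mpr ⟨Finset.mem_univ i, hi⟩⟩).ne' h0
    have hzero : ∀ (i : X) (z : ℍ), ∑ y, E.dual i y z = 0 := by
      intro i z
      have hL : IsL1 (12 - E.wt i) (∑ y, E.dual i y) := (hE.isVC_dual hneg i).toIsVF.sum_isL1
      have hz : IsZeroAtImInfty (∑ y, E.dual i y) :=
        Finset.sum_induction _ IsZeroAtImInfty
          (fun _ _ h h' ↦ by simpa [IsZeroAtImInfty, ZeroAtFilter] using h.add h')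
          tendsto_const_nhds fun y _ ↦ (hE.isVC_dual hneg i).zero y
      have := congrFun (hL.eq_zero_of_cusp hz (by have := E.wt_nonneg i; have := hne i; omega)) z
      simpa using this
    have hinv : ∀ z i, ∑ y, (E.mat z)⁻¹ i y = 0 := fun z i ↦ by
      have := hzero i z
      simp only [dual, ← Finset.mul_sum] at this
      exact (mul_eq_zero.mp this).resolve_left (ModularForm.discriminant_ne_zero z)
    have hu : IsUnit (E.mat UpperHalfPlane.I).det := isUnit_iff_ne_zero.mpr (hD _)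
    have h1 : (E.mat UpperHalfPlane.I)⁻¹ *ᵥ (fun _ ↦ 1) = 0 := by
      funext i; simpa [Matrix.mulVec, dotProduct] using hinv _ i
    have h2 := congrArg (E.mat UpperHalfPlane.I *ᵥ ·) h1
    simp only [Matrix.mulVec_mulVec, Matrix.mul_nonsing_inv _ hu, Matrix.one_mulVec,
      Matrix.mulVec_zero] at h2
    exact one_ne_zero (congrFun h2 x)

theorem IsMinimal.finrank_vcSub_two (hE : E.IsMinimal)
    (hneg : ∀ x : X, (-1 : SL(2, ℤ)) • x = x) :
    FiniteDimensional ℂ (vcSub X 2) ∧ Module.finrank ℂ (vcSub X 2) = E.num 10 := by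
  have hD := hE.detF_ne_zero' hneg
  let ι := {i : X // E.wt i = 10}
  let Φ : (ι → ℂ) →ₗ[ℂ] (X → ℍ → ℂ) := Fintype.linearCombination ℂ (fun i : ι ↦ E.dual i.1)
  have hΦ : ∀ c x z, Φ c x z = ∑ i : ι, c i * E.dual i.1 x z := fun c x z ↦ by
    simp [Φ, Fintype.linearCombination_apply, Finset.sum_apply]
  have hinj : Function.Injective Φ := by
    rw [← LinearMap.ker_eq_bot, LinearMap.ker_eq_bot']
    intro c hc
    funext j
    have h : ∑ x, Φ c x UpperHalfPlane.I * E.frm j.1 x UpperHalfPlane.I = 0 := by simp [hc]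
    simp only [hΦ, Finset.sum_mul] at h
    rw [Finset.sum_comm] at h
    simp only [mul_assoc, ← Finset.mul_sum, sum_frm_mul_dual hD, Subtype.coe_inj, mul_ite,
      mul_zero, Finset.sum_ite_eq', Finset.mem_univ, if_true] at h
    simpa using (mul_eq_zero.mp h).resolve_right (ModularForm.discriminant_ne_zero _)
  have hrange : LinearMap.range Φ = vcSub X 2 := by
    apply le_antisymm
    · rintro _ ⟨c, rfl⟩
      simp only [Φ, Fintype.linearCombination_apply]
      refine Submodule.sum_mem _ fun i _ ↦ Submodule.smul_mem _ _ ?_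
      have := hE.isVC_dual hneg i.1
      rw [i.2] at this
      exact this
    · intro g (hg : IsVC 2 g)
      have hb : ∀ i, ∃ c : ℂ, (E.wt i ≠ 10 → c = 0) ∧
          ∀ z, ∑ y, E.frm i y z * g y z = c * disc z := by
        intro i
        have hL : IsL1 (E.wt i + 2) (∑ y, E.frm i y * g y) :=
          ((E.isVF i).mul hg.toIsVF).sum_isL1
        have hz : IsZeroAtImInfty (∑ y, E.frm i y * g y) := by
          refine Finset.sum_induction _ IsZeroAtImInfty
            (fun _ _ h h' ↦ by simpa [IsZeroAtImInfty, ZeroAtFilter] using h.add h')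
            tendsto_const_nhds fun y _ ↦ ?_
          exact ((E.isVF i).bdd y).mul_zeroAtFilter (hg.zero y)
        by_cases h10 : E.wt i = 10
        · obtain ⟨c, hc⟩ := (hL.of_eq (by omega : E.wt i + 2 = 12)).exists_smul_disc hz
          exact ⟨c, fun h ↦ absurd h10 h, fun z ↦ by simpa using hc z⟩
        · have hlt : E.wt i + 2 < 12 := by
            have := hE.wt_cases hneg i
            simp only [Finset.mem_insert, Finset.mem_singleton] at this
            omega
          have h0 := hL.eq_zero_of_cusp hz hlt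
          exact ⟨0, fun _ ↦ rfl, fun z ↦ by simpa using congrFun h0 z⟩
      choose c hc0 hc using hb
      refine ⟨fun i ↦ c i.1, ?_⟩
      funext x z
      rw [hΦ]
      apply mul_left_cancel₀ (ModularForm.discriminant_ne_zero z)
      show disc z * _ = disc z * _
      rw [sum_dual_mul hD (fun y ↦ g y z) z x]
      simp only [hc]
      rw [← Finset.sum_subset (Finset.subset_univ (Finset.univ.filter (fun i ↦ E.wt i = 10)))
        (fun i _ hi ↦ by rw [hc0 i (by simpa using hi)]; simp),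
        Finset.sum_subtype _ (p := fun i ↦ E.wt i = 10) (by simp), Finset.mul_sum]
      exact Finset.sum_congr rfl fun i _ ↦ by ring
  let e := (LinearEquiv.ofInjective Φ hinj).trans (LinearEquiv.ofEq _ _ hrange)
  refine ⟨e.finiteDimensional, ?_⟩
  rw [← e.finrank_eq, Module.finrank_pi, Fintype.card_subtype]
  rfl

theorem IsMinimal.num_ten_eq [Nonempty X] (hE : E.IsMinimal)
    (hneg : ∀ x : X, (-1 : SL(2, ℤ)) • x = x) :
    12 * (E.num 10 : ℚ) = 12 + Fintype.card X - 3 * Nat.card {x : X // S • x = x}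
      - 4 * Nat.card {x : X // (S * T) • x = x}
      - 6 * Nat.card (MulAction.orbitRel.Quotient (Subgroup.zpowers T) X) := by
  have hD := hE.detF_ne_zero' hneg
  have hcard : Fintype.card X
      = E.num 0 + E.num 2 + E.num 4 + E.num 6 + E.num 8 + E.num 10 := by
    have := hE.sum_eq hneg (fun _ ↦ (1 : ℕ))
    simpa using this
  have hsum := hE.total_wt hneg
  rw [show ∑ i, E.wt i = ∑ i, (id : ℤ → ℤ) (E.wt i) from rfl, hE.sum_eq hneg] at hsum
  simp only [id_eq, nsmul_eq_mul] at hsum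
  have hS := E.trace_at_fixed S_smul_I (hD _)
  rw [denom_S_I, hE.sum_eq hneg (fun w ↦ Complex.I ^ (-w))] at hS
  have hI : ∀ k : ℤ, Complex.I ^ (-(2 * k)) = (-1 : ℂ) ^ k := fun k ↦ by
    rw [_root_.zpow_neg, _root_.zpow_mul, zpow_ofNat, Complex.I_sq, ← _root_.inv_zpow, inv_neg, inv_one]
  have hS' : (Nat.card {x : X // S • x = x} : ℝ)
      = E.num 0 - E.num 2 + E.num 4 - E.num 6 + E.num 8 - E.num 10 := by
    rw [show (2 : ℤ) = 2 * 1 from rfl, show (4 : ℤ) = 2 * 2 from rfl, show (6 : ℤ) = 2 * 3 from rfl,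
      show (8 : ℤ) = 2 * 4 from rfl, show (10 : ℤ) = 2 * 5 from rfl, show (0 : ℤ) = 2 * 0 from rfl,
      hI, hI, hI, hI, hI, hI] at hS
    have h := congrArg Complex.re hS
    norm_num [zpow_ofNat] at h
    rw [Nat.card_eq_fintype_card]
    linarith
  have hT := E.trace_at_fixed ST_smul_rho (hD _)
  rw [denom_ST_rho, hE.sum_eq hneg (fun w ↦ ((UpperHalfPlane.ρ : ℂ) + 1) ^ (-w))] at hT
  have hu : ∀ k : ℤ, ((UpperHalfPlane.ρ : ℂ) + 1) ^ (-(2 * k)) = ((UpperHalfPlane.ρ : ℂ) ^ 2) ^ k :=
    fun k ↦ by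
      rw [_root_.zpow_neg, _root_.zpow_mul, zpow_ofNat, rho_succ_sq, ← _root_.inv_zpow]
      congr 1
      rw [inv_eq_of_mul_eq_one_right]
      linear_combination rho_cube
  rw [show (2 : ℤ) = 2 * 1 from rfl, show (4 : ℤ) = 2 * 2 from rfl, show (6 : ℤ) = 2 * 3 from rfl,
    show (8 : ℤ) = 2 * 4 from rfl, show (10 : ℤ) = 2 * 5 from rfl, show (0 : ℤ) = 2 * 0 from rfl,
    hu, hu, hu, hu, hu, hu] at hT
  set r := (UpperHalfPlane.ρ : ℂ) with hr
  have q2 : r ^ 2 = -r - 1 := UpperHalfPlane.ρ_sq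
  have q3 : r ^ 3 = 1 := rho_cube
  have p0 : (r ^ 2) ^ (0 : ℤ) = 1 := zpow_zero _
  have p1 : (r ^ 2) ^ (1 : ℤ) = -r - 1 := by rw [_root_.zpow_one, q2]
  have p2 : (r ^ 2) ^ (2 : ℤ) = r := by rw [zpow_ofNat]; linear_combination r * q3
  have p3 : (r ^ 2) ^ (3 : ℤ) = 1 := by rw [zpow_ofNat]; linear_combination (r ^ 3 + 1) * q3
  have p4 : (r ^ 2) ^ (4 : ℤ) = -r - 1 := by
    rw [zpow_ofNat]; linear_combination (r ^ 5 + r ^ 2) * q3 + q2
  have p5 : (r ^ 2) ^ (5 : ℤ) = r := by
    rw [zpow_ofNat]; linear_combination (r ^ 7 + r ^ 4 + r) * q3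
  rw [p0, p1, p2, p3, p4, p5] at hT
  have hT' : (Nat.card {x : X // (S * T) • x = x} : ℂ)
      = ((E.num 0 + E.num 6 - E.num 2 - E.num 8 : ℝ) : ℂ)
        + ((E.num 4 + E.num 10 - E.num 2 - E.num 8 : ℝ) : ℂ) * r := by
    rw [hT]
    simp only [nsmul_eq_mul, mul_zero, mul_one, Int.reduceMul, Complex.ofReal_sub,
      Complex.ofReal_add, Complex.ofReal_natCast]
    ring
  have him := congrArg Complex.im hT'
  have hre := congrArg Complex.re hT'
  simp only [Complex.natCast_im, Complex.natCast_re, Complex.add_im, Complex.add_re,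
    Complex.ofReal_im, Complex.ofReal_re, Complex.mul_im, Complex.mul_re, zero_mul, zero_add,
    sub_zero, add_zero] at him hre
  have h43 := (mul_eq_zero.mp him.symm).resolve_right (show r.im ≠ 0 from UpperHalfPlane.ρ.im_pos.ne')
  rw [h43, zero_mul, add_zero] at hre
  have hn0 := hE.num_zero hneg
  have h1 : (12 * (E.num 10 : ℝ)) = 12 + Fintype.card X - 3 * Nat.card {x : X // S • x = x}
      - 4 * Nat.card {x : X // (S * T) • x = x}
      - 6 * Nat.card (MulAction.orbitRel.Quotient (Subgroup.zpowers T) X) := by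
    have hc : (Fintype.card X : ℝ) = _ := congrArg (Nat.cast : ℕ → ℝ) hcard
    push_cast at hc
    have hs : ((_ : ℤ) : ℝ) = _ := congrArg (Int.cast : ℤ → ℝ) hsum
    push_cast at hs
    rw [hn0, Nat.cast_one] at hc hS' hre
    linarith
  exact_mod_cast h1

end Family

end Fermat.Agent.DimLower
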