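/-
Cusp forms on a finite index subgroup as vector valued forms on its cosets.
-/
import Fermat.Agent.DimLower.Count
import Mathlib.NumberTheory.ModularForms.ArithmeticSubgroups
import Mathlib.GroupTheory.GroupAction.Quotient

set_option autoImplicit false

noncomputable section

namespace Fermat.Agent.DimLower

open UpperHalfPlane Filter Topology Complex Asymptotics Matrix.SpecialLinearGroup
open scoped MatrixGroups ModularForm Manifold Real

variable {Γ : Subgroup SL(2, ℤ)} {k : ℤ}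

/-- The coset components of a function. -/
def vecFun (k : ℤ) (f : ℍ → ℂ) (q : SL(2, ℤ) ⧸ Γ) : ℍ → ℂ := f ∣[k] (q.out)⁻¹

theorem vecFun_mk {f : ℍ → ℂ} (hf : ∀ γ ∈ Γ, f ∣[k] γ = f) (g : SL(2, ℤ)) :
    vecFun k f (g : SL(2, ℤ) ⧸ Γ) = f ∣[k] g⁻¹ := by
  obtain ⟨γ, hγ⟩ := QuotientGroup.mk_out_eq_mul Γ g
  rw [vecFun, hγ, mul_inv_rev, SlashAction.slash_mul, hf _ (Γ.inv_mem γ.2)]

theorem vecFun_one {f : ℍ → ℂ} (hf : ∀ γ ∈ Γ, f ∣[k] γ = f) :
    vecFun k f ((1 : SL(2, ℤ)) : SL(2, ℤ) ⧸ Γ) = f := by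
  rw [vecFun_mk hf, inv_one, SlashAction.slash_one]

theorem vecFun_slash {f : ℍ → ℂ} (hf : ∀ γ ∈ Γ, f ∣[k] γ = f) (γ : SL(2, ℤ))
    (q : SL(2, ℤ) ⧸ Γ) : vecFun k f q ∣[k] γ = vecFun k f (γ⁻¹ • q) := by
  induction q using QuotientGroup.induction_on with
  | H g =>
    rw [MulAction.Quotient.smul_mk, smul_eq_mul, vecFun_mk hf, vecFun_mk hf, mul_inv_rev, inv_inv,
      SlashAction.slash_mul]

theorem slash_eq_of_mem {F : Type*} [FunLike F ℍ ℂ]
    [SlashInvariantFormClass F (Γ.map (mapGL ℝ)) k] (f : F) :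
    ∀ γ ∈ Γ, (⇑f) ∣[k] γ = ⇑f :=
  fun γ hγ ↦ SlashInvariantFormClass.slash_action_eq f _ (Subgroup.mem_map_of_mem _ hγ)

variable [Γ.FiniteIndex]

theorem isVC_vecFun (f : CuspForm (Γ.map (mapGL ℝ)) k) :
    IsVC k (vecFun (Γ := Γ) k (f : ℍ → ℂ)) := by
  have hs := slash_eq_of_mem f
  have hz : ∀ g : SL(2, ℤ), IsZeroAtImInfty ((f : ℍ → ℂ) ∣[k] g) := by
    intro g
    have hc : IsCusp (mapGL ℝ g • OnePoint.infty) (Γ.map (mapGL ℝ)) := by
      rw [Subgroup.IsArithmetic.isCusp_iff_isCusp_SL2Z]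
      exact isCusp_SL2Z_iff'.mpr ⟨g, rfl⟩
    exact f.zero_at_cusps' hc _ rfl
  refine ⟨⟨fun q ↦ ?_, fun γ q ↦ vecFun_slash hs γ q, fun q ↦ (hz _).isBoundedAtImInfty⟩,
    fun q ↦ hz _⟩
  exact MDifferentiable.slash (CuspFormClass.holo f) k _

/-- A vector valued cusp form as a cusp form on the stabiliser of the base coset. -/
def ofVC {F : (SL(2, ℤ) ⧸ Γ) → ℍ → ℂ} (hF : IsVC k F) : CuspForm (Γ.map (mapGL ℝ)) k where
  toFun := F ((1 : SL(2, ℤ)) : SL(2, ℤ) ⧸ Γ)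
  slash_action_eq' := fun δ hδ ↦ by
    obtain ⟨γ, hγ, rfl⟩ := hδ
    refine (hF.slash γ _).trans ?_
    congr 1
    rw [MulAction.Quotient.smul_mk, smul_eq_mul, mul_one, QuotientGroup.eq]
    simpa using hγ
  holo' := hF.mdiff _
  zero_at_cusps' := fun {c} hc ↦ by
    rw [Subgroup.IsArithmetic.isCusp_iff_isCusp_SL2Z] at hc
    rw [OnePoint.isZeroAt_iff_forall_SL2Z hc]
    intro γ _
    rw [hF.slash]
    exact hF.zero _

variable [Fintype (SL(2, ℤ) ⧸ Γ)]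

/-- Cusp forms on `Γ` and vector valued cusp forms on its cosets. -/
def cuspFormEquiv (k : ℤ) :
    CuspForm (Γ.map (mapGL ℝ)) k ≃ₗ[ℂ] vcSub (SL(2, ℤ) ⧸ Γ) k where
  toFun f := ⟨vecFun k f, isVC_vecFun f⟩
  map_add' f g := Subtype.ext (funext fun q ↦ SlashAction.add_slash k _ _ _)
  map_smul' c f := Subtype.ext (funext fun q ↦ ModularForm.SL_smul_slash k _ _ _)
  invFun F := ofVC F.2
  left_inv f := DFunLike.coe_injective (vecFun_one (slash_eq_of_mem f))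
  right_inv := fun ⟨F, hF⟩ ↦ by
    refine Subtype.ext (funext fun q ↦ ?_)
    induction q using QuotientGroup.induction_on with
    | H g =>
      have hs := vecFun_mk (k := k) (slash_eq_of_mem (ofVC (k := k) hF)) g
      refine hs.trans ?_
      show F _ ∣[k] g⁻¹ = F _
      rw [IsVF.slash (IsVC.toIsVF hF), inv_inv, MulAction.Quotient.smul_mk, smul_eq_mul, mul_one]

end Fermat.Agent.DimLower
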