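/-
`Δ(N z)` separates the cosets of `Γ₀(N)`: a family of vector valued forms with non-zero
determinant.
-/
import Fermat.Agent.DimLower.Bridge
import Mathlib.NumberTheory.ModularForms.CongruenceSubgroups
import Mathlib.LinearAlgebra.Vandermonde

set_option autoImplicit false

noncomputable section

namespace Fermat.Agent.DimLower

open UpperHalfPlane Filter Topology Complex Asymptotics Matrix.SpecialLinearGroup
open scoped MatrixGroups ModularForm Manifold Real
open CongruenceSubgroup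

variable (N : ℕ) [NeZero N]

theorem scaledPoint_im_pos (z : ℍ) : 0 < ((N : ℂ) * z).im := by
  have : 0 < N := Nat.pos_of_ne_zero (NeZero.ne N)
  simp only [Complex.mul_im, Complex.natCast_re, Complex.natCast_im, zero_mul, add_zero]
  exact mul_pos (by exact_mod_cast this) z.im_pos

/-- `Δ(N z)`. -/
def discN (z : ℍ) : ℂ := disc ⟨(N : ℂ) * z, scaledPoint_im_pos N z⟩

theorem mdiff_discN : MDiff (discN N) := by
  rw [UpperHalfPlane.mdifferentiable_iff]
  intro w hw
  have h : DifferentiableAt ℂ (ext' disc) ((N : ℂ) * w) :=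
    UpperHalfPlane.mdifferentiableAt_iff.mp (mdiff_disc ⟨_, scaledPoint_im_pos N ⟨w, hw⟩⟩)
  have h2 := h.comp w (differentiableAt_id.const_mul (N : ℂ))
  refine (h2.congr_of_eventuallyEq ?_).differentiableWithinAt
  filter_upwards [isOpen_upperHalfPlaneSet.mem_nhds hw] with v hv
  show discN N (ofComplex v) = ext' disc ((N : ℂ) * v)
  rw [ofComplex_apply_of_im_pos hv, ext', Function.comp_apply,
    ofComplex_apply_of_im_pos (scaledPoint_im_pos N ⟨v, hv⟩)]
  rfl

variable {N}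

theorem affine_im_pos {g D : ℕ} (hg : 0 < g) (hD : 0 < D) (B : ℤ) (z : ℍ) :
    0 < (((g : ℂ) * z + B) / D).im := by
  rw [Complex.div_natCast_im]
  refine div_pos ?_ (by exact_mod_cast hD)
  simp only [Complex.add_im, Complex.mul_im, Complex.natCast_re, Complex.natCast_im,
    Complex.intCast_im, zero_mul, add_zero]
  exact mul_pos (by exact_mod_cast hg) z.im_pos

variable (N)

/-- The translates of `Δ(N z)` are of the form `Δ((g z + B) / D)` with `g = gcd (N, c)`. -/
theorem discN_slash (γ : SL(2, ℤ)) :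
    ∃ (g D : ℕ) (B : ℤ) (hg : 0 < g) (hD : 0 < D), g = Int.gcd (N : ℤ) (γ 1 0) ∧ g * D = N ∧
      ∀ z : ℍ, (discN N ∣[(12 : ℤ)] γ) z
        = (D : ℂ) ^ (-12 : ℤ) * disc ⟨((g : ℂ) * z + B) / D, affine_im_pos hg hD B z⟩ := by
  set a := γ 0 0 with ha
  set b := γ 0 1 with hb
  set c := γ 1 0 with hc
  set d := γ 1 1 with hd
  have hdet : a * d - b * c = 1 := by
    rw [ha, hb, hc, hd, ← Matrix.det_fin_two, Matrix.SpecialLinearGroup.det_coe]
  set g := Int.gcd (N : ℤ) c with hgdef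
  have hg : 0 < g := Int.gcd_pos_of_ne_zero_left _ (by exact_mod_cast NeZero.ne N)
  obtain ⟨D, hD⟩ : g ∣ N := by exact_mod_cast Int.gcd_dvd_left (N : ℤ) c
  have hD0 : 0 < D := Nat.pos_of_ne_zero (fun h ↦ NeZero.ne N (by rw [hD, h, mul_zero]))
  obtain ⟨c', hc'⟩ : (g : ℤ) ∣ c := Int.gcd_dvd_right _ _
  have hNZ : (N : ℤ) = g * D := by exact_mod_cast hD
  have h1 : IsCoprime (D : ℤ) c' := by
    have hbez := Int.gcd_eq_gcd_ab (N : ℤ) c
    refine ⟨Int.gcdA N c, Int.gcdB N c, mul_left_cancel₀ (show (g : ℤ) ≠ 0 by omega) ?_⟩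
    rw [← hgdef] at hbez
    linear_combination -hbez - Int.gcdA N c * hNZ - Int.gcdB N c * hc'
  have h2 : IsCoprime a c' :=
    ⟨d, -(b * g), by linear_combination hdet + b * hc'⟩
  obtain ⟨u, v, huv⟩ := h1.mul_left h2
  let γ₁ : SL(2, ℤ) := ⟨!![(D : ℤ) * a, -v; c', u],
    by rw [Matrix.det_fin_two_of]; linear_combination huv⟩
  let B : ℤ := u * N * b + v * d
  refine ⟨g, D, B, hg, hD0, rfl, hD.symm, fun z ↦ ?_⟩
  have e1 : (D : ℤ) * a * B - v * D = N * b := by
    linear_combination (v * D) * hdet + (N * b : ℤ) * huv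
      + (D * b * v : ℤ) * hc' - (b * v * c') * hNZ
  have e2 : c' * B + u * D = d := by
    linear_combination d * huv - u * D * hdet + (u * b * c') * hNZ - (u * D * b) * hc'
  set w : ℍ := ⟨((g : ℂ) * z + B) / D, affine_im_pos hg hD0 B z⟩ with hw
  have hDC : (D : ℂ) ≠ 0 := by exact_mod_cast hD0.ne'
  have hzd : (c : ℂ) * z + d ≠ 0 := by
    have := denom_ne_zero γ (z := z)
    rwa [ModularGroup.denom_apply] at this
  have hden : denom γ₁ (w : ℂ) = ((c : ℂ) * z + d) / D := by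
    rw [ModularGroup.denom_apply]
    show (((c' : ℤ) : ℂ) * (((g : ℂ) * z + B) / D) + ((u : ℤ) : ℂ)) = _
    have e2' : (c' : ℂ) * B + u * D = d := by exact_mod_cast e2
    have hc'' : (c : ℂ) = g * c' := by exact_mod_cast hc'
    field_simp
    linear_combination e2' - (z : ℂ) * hc''
  have hden0 : denom γ (z : ℂ) = (c : ℂ) * z + d := ModularGroup.denom_apply γ z
  have h4 : ((γ • z : ℍ) : ℂ) = ((a : ℂ) * z + b) / ((c : ℂ) * z + d) := by
    rw [UpperHalfPlane.coe_specialLinearGroup_apply]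
    simp only [algebraMap_int_eq, eq_intCast, Complex.ofReal_intCast]
    rfl
  have hpt : (⟨(N : ℂ) * ((γ • z : ℍ) : ℂ), scaledPoint_im_pos N (γ • z)⟩ : ℍ) = γ₁ • w := by
    apply UpperHalfPlane.ext
    rw [UpperHalfPlane.coe_specialLinearGroup_apply γ₁ w]
    show (N : ℂ) * ((γ • z : ℍ) : ℂ) = _
    rw [h4]
    simp only [algebraMap_int_eq, eq_intCast, Complex.ofReal_intCast]
    have hden' : ((γ₁ 1 0 : ℤ) : ℂ) * (w : ℂ) + ((γ₁ 1 1 : ℤ) : ℂ) = ((c : ℂ) * z + d) / D := by
      rw [← hden, ModularGroup.denom_apply]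
    rw [hden']
    have e1' : (D : ℂ) * a * B - v * D = N * b := by exact_mod_cast e1
    have hN' : (N : ℂ) = g * D := by exact_mod_cast hNZ
    show _ = (((((D : ℤ) * a : ℤ)) : ℂ) * (((g : ℂ) * z + B) / D) + ((-v : ℤ) : ℂ))
      / (((c : ℂ) * z + d) / D)
    push_cast
    generalize (c : ℂ) * z + d = q at hzd ⊢
    field_simp
    linear_combination -e1' + (a * z : ℂ) * hN'
  rw [ModularForm.SL_slash_apply, discN, hpt, disc_smul, hden, hden0, div_zpow,
    _root_.zpow_neg, _root_.zpow_neg]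
  generalize (c : ℂ) * z + d = q at hzd ⊢
  field_simp

theorem discN_slash_of_mem {γ : SL(2, ℤ)} (hγ : γ ∈ Gamma0 N) :
    discN N ∣[(12 : ℤ)] γ = discN N := by
  obtain ⟨g, D, B, hg, hD, hgd, hgD, h⟩ := discN_slash N γ
  have hNd : (N : ℤ) ∣ γ 1 0 := by
    rw [← ZMod.intCast_zmod_eq_zero_iff_dvd]; exact Gamma0_mem.mp hγ
  have hgN : g = N := by
    rw [hgd]; exact_mod_cast Int.gcd_eq_left (Int.natCast_nonneg N) hNd
  have hD1 : D = 1 := by
    subst hgN
    exact (Nat.mul_eq_left hg.ne').mp hgD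
  subst hD1
  funext z
  rw [h z]
  simp only [Nat.cast_one, _root_.one_zpow, one_mul, discN]
  have hper := (periodic_levelOne (CuspForm.toModularFormₗ CuspForm.discriminant)).int_mul B
  have h1 := hper ((N : ℂ) * z)
  have hi := scaledPoint_im_pos N z
  have hi' : 0 < ((N : ℂ) * z + (B : ℤ) * ((1 : ℝ) : ℂ)).im := by simpa using hi
  simp only [ext', Function.comp_apply, ofComplex_apply_of_im_pos hi,
    ofComplex_apply_of_im_pos hi'] at h1
  refine Eq.trans ?_ h1
  show disc _ = disc _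
  congr 1
  apply UpperHalfPlane.ext
  simp [hgN]

theorem tendsto_affine_atImInfty {g D : ℕ} (hg : 0 < g) (hD : 0 < D) (B : ℤ) :
    Tendsto (fun z : ℍ ↦ (⟨((g : ℂ) * z + B) / D, affine_im_pos hg hD B z⟩ : ℍ))
      atImInfty atImInfty := by
  rw [atImInfty, tendsto_comap_iff]
  have e : (UpperHalfPlane.im ∘ fun z : ℍ ↦
      (⟨((g : ℂ) * z + B) / D, affine_im_pos hg hD B z⟩ : ℍ)) = fun z ↦ (g / D : ℝ) * z.im := by
    funext z
    show (((g : ℂ) * z + B) / D).im = _
    rw [Complex.div_natCast_im]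
    simp only [Complex.add_im, Complex.mul_im, Complex.natCast_re, Complex.natCast_im,
      Complex.intCast_im, zero_mul, add_zero, UpperHalfPlane.coe_im]
    ring
  rw [e]
  exact Tendsto.const_mul_atTop (by positivity) tendsto_comap

theorem isBounded_discN_slash (γ : SL(2, ℤ)) :
    IsBoundedAtImInfty (discN N ∣[(12 : ℤ)] γ) := by
  obtain ⟨g, D, B, hg, hD, -, -, h⟩ := discN_slash N γ
  have := ((tendsto_disc.comp (tendsto_affine_atImInfty hg hD B)).const_mul
    ((D : ℂ) ^ (-12 : ℤ))).congr fun z ↦ (h z).symm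
  exact this.isBigO_one ℝ

theorem mem_Gamma0_of_discN_slash_eq {γ : SL(2, ℤ)} (hγ : discN N ∣[(12 : ℤ)] γ = discN N) :
    γ ∈ Gamma0 N := by
  obtain ⟨g, D, B, hg, hD, hgd, hgD, h⟩ := discN_slash N γ
  by_cases hD1 : D = 1
  · rw [Gamma0_mem, ZMod.intCast_zmod_eq_zero_iff_dvd]
    subst hD1
    rw [mul_one] at hgD
    rw [← hgD, hgd]
    exact Int.gcd_dvd_right _ _
  exfalso
  have hN : 0 < N := Nat.pos_of_ne_zero (NeZero.ne N)
  let R : ℍ → ℝ := fun w ↦ ‖Function.Periodic.qParam 1 (w : ℂ) / disc w‖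
  have hR : Tendsto R atImInfty (𝓝 1) := by
    have := tendsto_qParam_div_disc.norm
    rw [norm_one] at this
    exact this
  have hnorm : ∀ w : ℍ, ‖disc w‖ * R w = Real.exp (-2 * π * w.im) := by
    intro w
    simp only [R, norm_div]
    rw [mul_div_cancel₀ _ (norm_ne_zero_iff.mpr (ModularForm.discriminant_ne_zero w)),
      Function.Periodic.norm_qParam, UpperHalfPlane.coe_im, div_one]
  let p : ℍ → ℍ := fun z ↦ ⟨((g : ℂ) * z + B) / D, affine_im_pos hg hD B z⟩
  let P : ℍ → ℍ := fun z ↦ ⟨(N : ℂ) * z, scaledPoint_im_pos N z⟩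
  have hp := tendsto_affine_atImInfty hg hD B
  have hP : Tendsto P atImInfty atImInfty := by
    rw [atImInfty, tendsto_comap_iff]
    have e : (UpperHalfPlane.im ∘ P) = fun z ↦ (N : ℝ) * z.im := by
      funext z
      show ((N : ℂ) * z).im = _
      simp
    rw [e]
    exact Tendsto.const_mul_atTop (by exact_mod_cast hN) tendsto_comap
  have hlim : Tendsto (fun z ↦ R (P z) / R (p z)) atImInfty (𝓝 1) := by
    have := (hR.comp hP).div (hR.comp hp) one_ne_zero
    rw [div_one] at this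
    exact this
  set ε : ℝ := 2 * π * ((N : ℝ) - g / D) with hε
  have hεpos : 0 < ε := by
    refine mul_pos (by positivity) (sub_pos.mpr ?_)
    rw [div_lt_iff₀ (by exact_mod_cast hD)]
    have h2 : g < g * D * D := by
      have hD2 : 2 ≤ D := by omega
      calc g = g * 1 * 1 := by ring
        _ < g * D * D := by gcongr <;> omega
    rw [← hgD]
    exact_mod_cast h2
  have he : ∀ z : ℍ, R (P z) / R (p z) = ((D : ℝ) ^ (-12 : ℤ))⁻¹ * Real.exp (-ε * z.im) := by
    intro z
    have h0 := congrArg norm ((congrFun hγ z).symm.trans (h z))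
    rw [norm_mul, norm_zpow, Complex.norm_natCast] at h0
    have h1 := hnorm (P z)
    have h2 := hnorm (p z)
    change ‖disc (P z)‖ = _ * ‖disc (p z)‖ at h0
    have hd0 : ‖disc (p z)‖ ≠ 0 := norm_ne_zero_iff.mpr (ModularForm.discriminant_ne_zero _)
    have hR0 : R (p z) ≠ 0 := by
      intro hh; rw [hh, mul_zero] at h2; exact (Real.exp_pos _).ne h2
    have hDr : ((D : ℝ) ^ (-12 : ℤ)) ≠ 0 := zpow_ne_zero _ (by exact_mod_cast hD.ne')
    have him1 : (P z).im = N * z.im := by show ((N : ℂ) * z).im = _; simp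
    have him2 : (p z).im = g / D * z.im := by
      show (((g : ℂ) * z + B) / D).im = _
      rw [Complex.div_natCast_im]
      simp only [Complex.add_im, Complex.mul_im, Complex.natCast_re, Complex.natCast_im,
        Complex.intCast_im, zero_mul, add_zero, UpperHalfPlane.coe_im]
      ring
    have hexp : Real.exp (-ε * z.im) * Real.exp (-2 * π * (p z).im)
        = Real.exp (-2 * π * (P z).im) := by
      rw [← Real.exp_add, him1, him2, hε]; congr 1; ring
    rw [← h1, ← h2, h0] at hexp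
    rw [div_eq_iff hR0]
    have h5 : (D : ℝ) ^ (-12 : ℤ) * R (P z) = Real.exp (-ε * z.im) * R (p z) :=
      mul_left_cancel₀ hd0 (by linear_combination -hexp)
    rw [mul_assoc, ← h5, inv_mul_cancel_left₀ hDr]
  have h0 : Tendsto (fun z : ℍ ↦ ((D : ℝ) ^ (-12 : ℤ))⁻¹ * Real.exp (-ε * z.im)) atImInfty
      (𝓝 0) := by
    have hbot : Tendsto (fun z : ℍ ↦ -ε * z.im) atImInfty atBot := by
      simp only [neg_mul, tendsto_neg_atBot_iff]
      exact Tendsto.const_mul_atTop hεpos tendsto_comap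
    simpa using (Real.tendsto_exp_atBot.comp hbot).const_mul (((D : ℝ) ^ (-12 : ℤ))⁻¹)
  exact one_ne_zero (tendsto_nhds_unique hlim (h0.congr fun z ↦ (he z).symm))

variable [Fintype (SL(2, ℤ) ⧸ Gamma0 N)] [DecidableEq (SL(2, ℤ) ⧸ Gamma0 N)]

theorem nonempty_family : Nonempty (Family (SL(2, ℤ) ⧸ Gamma0 N)) := by
  classical
  have hinv : ∀ γ ∈ Gamma0 N, discN N ∣[(12 : ℤ)] γ = discN N :=
    fun γ hγ ↦ discN_slash_of_mem N hγ
  set F : (SL(2, ℤ) ⧸ Gamma0 N) → ℍ → ℂ := vecFun 12 (discN N) with hFdef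
  have hF : IsVF 12 F := ⟨fun q ↦ MDifferentiable.slash (mdiff_discN N) 12 _,
    fun γ q ↦ vecFun_slash hinv γ q, fun q ↦ isBounded_discN_slash N _⟩
  have hinj : Function.Injective F := by
    intro q q' hq
    induction q using QuotientGroup.induction_on with
    | H g =>
      induction q' using QuotientGroup.induction_on with
      | H g' =>
        rw [hFdef, vecFun_mk hinv, vecFun_mk hinv] at hq
        rw [QuotientGroup.eq]
        refine mem_Gamma0_of_discN_slash_eq N ?_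
        rw [SlashAction.slash_mul, hq, ← SlashAction.slash_mul, inv_mul_cancel,
          SlashAction.slash_one]
  obtain ⟨z, hz⟩ := exists_forall_ne_zero
    (s := (Finset.univ : Finset ((SL(2, ℤ) ⧸ Gamma0 N) × (SL(2, ℤ) ⧸ Gamma0 N))).filter
      (fun p ↦ p.1 ≠ p.2))
    (f := fun p ↦ F p.1 - F p.2) (fun p _ ↦ (hF.mdiff _).sub (hF.mdiff _))
    (fun p hp h ↦ (Finset.mem_filter.mp hp).2 (hinj (sub_eq_zero.mp h)))
  set n := Fintype.card (SL(2, ℤ) ⧸ Gamma0 N) with hn
  let e : (SL(2, ℤ) ⧸ Gamma0 N) ≃ Fin n := Fintype.equivFin _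
  refine ⟨{ wt := fun _ ↦ 12 * ((n : ℤ) - 1)
            frm := fun i ↦ fun x ↦ disc ^ (n - 1 - (e i : ℕ)) * (F ^ (e i : ℕ)) x
            isVF := fun i ↦ ?_
            exists_det_ne_zero := ⟨z, ?_⟩ }⟩
  · refine ((hF.pow (e i : ℕ)).mul_L1 (IsL1.disc.pow (n - 1 - (e i : ℕ)))).of_eq ?_
    have := (e i).isLt
    rw [Nat.cast_sub (by omega), Nat.cast_sub (by omega)]
    push_cast
    ring
  · let G : (SL(2, ℤ) ⧸ Gamma0 N) → ℂ := fun x ↦ F x z
    have hmat : (Matrix.of fun x i ↦ (disc ^ (n - 1 - (e i : ℕ)) * (F ^ (e i : ℕ)) x) z :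
        Matrix (SL(2, ℤ) ⧸ Gamma0 N) (SL(2, ℤ) ⧸ Gamma0 N) ℂ)
        = Matrix.of fun x i ↦ disc z ^ (n - 1 - (e i : ℕ)) *
            ((Matrix.vandermonde (G ∘ e.symm)).submatrix e e) x i := by
      ext x i
      simp [Matrix.vandermonde_apply, G]
    rw [hmat, Matrix.det_mul_row, Matrix.det_submatrix_equiv_self]
    refine mul_ne_zero (Finset.prod_ne_zero_iff.mpr fun i _ ↦
      pow_ne_zero _ (ModularForm.discriminant_ne_zero z)) ?_
    rw [Matrix.det_vandermonde_ne_zero_iff]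
    intro a b hab
    by_contra hne
    refine hz (e.symm a, e.symm b) (Finset.mem_filter.mpr ⟨Finset.mem_univ _, ?_⟩)
      (sub_eq_zero.mpr hab)
    exact fun h ↦ hne (e.symm.injective h)

end Fermat.Agent.DimLower
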