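/-
Dimension of the space of weight two cusp forms on `Γ₀(N)`.
-/
import Fermat.Agent.DimLower.Separation
import Fermat.Agent.Gamma0.Elliptic
import Fermat.Agent.Gamma0.Cusps
import Fermat.Prelude.Def_ModularCurve_GenusNumerics

set_option autoImplicit false

noncomputable section

namespace Fermat.Agent.DimLower

open CongruenceSubgroup Matrix.SpecialLinearGroup
open scoped MatrixGroups
open ModularGroup (S T)

theorem finiteDimensional_and_finrank (N : ℕ) [NeZero N] :
    FiniteDimensional ℂ (CuspForm (Gamma0 N) 2) ∧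
      (Module.finrank ℂ (CuspForm (Gamma0 N) 2) : ℚ) = ModularCurve.genusFormula N := by
  classical
  haveI : Finite (SL(2, ℤ) ⧸ Gamma0 N) := inferInstance
  let _i : Fintype (SL(2, ℤ) ⧸ Gamma0 N) := Fintype.ofFinite _
  obtain ⟨E, hE⟩ := Family.exists_isMinimal (nonempty_family N)
  have hneg : ∀ x : SL(2, ℤ) ⧸ Gamma0 N, (-1 : SL(2, ℤ)) • x = x := Gamma0.neg_one_smul
  obtain ⟨hfd, hrk⟩ := hE.finrank_vcSub_two hneg
  have e := cuspFormEquiv (Γ := Gamma0 N) 2
  haveI := hfd
  refine ⟨e.symm.finiteDimensional, ?_⟩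
  have h := hE.num_ten_eq hneg
  rw [e.finrank_eq, hrk, ModularCurve.genusFormula]
  have h1 := Gamma0.card_coset N
  rw [Nat.card_eq_fintype_card] at h1
  rw [h1, Gamma0.card_fixed_S N, Gamma0.card_fixed_ST N] at h
  have h2 : Nat.card (MulAction.orbitRel.Quotient (Subgroup.zpowers T) (SL(2, ℤ) ⧸ Gamma0 N))
      = ModularCurve.cuspCount N := Gamma0.card_cuspOrbit N
  erw [h2] at h
  linarith

theorem finiteDimensional_cuspForm_two (N : ℕ) [NeZero N] :
    FiniteDimensional ℂ (CuspForm (Gamma0 N) 2) :=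
  (finiteDimensional_and_finrank N).1

theorem finrank_cuspForm_two_eq_genusFormula (N : ℕ) [NeZero N] :
    (Module.finrank ℂ (CuspForm (Gamma0 N) 2) : ℚ) = ModularCurve.genusFormula N :=
  (finiteDimensional_and_finrank N).2

end Fermat.Agent.DimLower
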